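import Fermat.Agent.Morley.Maps
import Mathlib.Order.Zorn

/-!
# Atomic submodels

In an omega-stable theory the isolated types are dense over every set, so every family lies in
an elementary submodel in which every tuple is isolated over the family.
-/

set_option autoImplicit false

universe u v w w'

namespace FA.Morley

open FirstOrder Language Cardinal

variable {L : Language.{u, v}} {T : L.Theory}

/-- A tuple isolated over a family. -/
def Isolated (L : Language.{u, v}) {P : Type w} {K : Type w'} [L.Structure K] (f : P → K) {k : ℕ}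
    (a : Fin k → K) : Prop :=
  ∃ χ : L.Formula (P ⊕ Fin k), χ.Realize (Sum.elim f a) ∧
    ∀ c, χ.Realize (Sum.elim f c) → ElemEquiv L (Sum.elim f a) (Sum.elim f c)

section

variable {P : Type w} {K : Type w'} [L.Structure K] {f : P → K}

/-- Tuples from the family are isolated. -/
theorem isolated_of_range {k : ℕ} (p : Fin k → P) : Isolated L f (f ∘ p) := by
  refine ⟨Formula.iInf fun l => Term.equal (.var (.inr l)) (.var (.inl (p l))), ?_, fun c hc => ?_⟩
  · simp [Formula.realize_iInf, Formula.realize_equal]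
  · simp only [Formula.realize_iInf, Formula.realize_equal, Term.realize_var, Sum.elim_inr,
      Sum.elim_inl] at hc
    rw [show c = f ∘ p from funext hc]
    exact elemEquiv_refl _

/-- Every arrangement of an isolated tuple is isolated. -/
theorem Isolated.comp {n k : ℕ} {w : Fin n → K} (h : Isolated L f w) (σ : Fin k → Fin n) :
    Isolated L f (w ∘ σ) := by
  obtain ⟨χ, hw, hχ⟩ := h
  refine ⟨((χ.relabel (Sum.elim (fun p => Sum.inl (Sum.inl p)) Sum.inr)) ⊓
    Formula.iInf fun l => Term.equal (.var (Sum.inl (Sum.inr l))) (.var (Sum.inr (σ l)))).iExs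
      (Fin n), ?_, fun c hc => ?_⟩
  · refine Formula.realize_iExs.2 ⟨w, Formula.realize_inf.2 ⟨?_, ?_⟩⟩
    · rw [Formula.realize_relabel]
      convert hw using 1
      exact funext fun x => by rcases x with x | x <;> rfl
    · simp [Formula.realize_iInf, Formula.realize_equal]
  · obtain ⟨w', hw'⟩ := Formula.realize_iExs.1 hc
    obtain ⟨h1, h2⟩ := Formula.realize_inf.1 hw'
    simp only [Formula.realize_iInf, Formula.realize_equal, Term.realize_var, Sum.elim_inr,
      Sum.elim_inl] at h2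
    rw [Formula.realize_relabel] at h1
    have he := hχ w' (by
      convert h1 using 1
      exact funext fun x => by rcases x with x | x <;> rfl)
    convert he.comp (Sum.map id σ) using 1 <;> refine funext fun x => ?_ <;> rcases x with x | x
    any_goals rfl
    exact h2 x

/-- An isolated tuple and a point isolated over it make an isolated tuple. -/
theorem Isolated.snoc {n : ℕ} {w : Fin n → K} (h : Isolated L f w) {a : K}
    (ψ : PFormula L (Fin n)) (ha : Holds w ψ a)
    (hψ : ∀ a', Holds w ψ a' → ∀ φ : PFormula L (P ⊕ Fin n),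
      (Holds (Sum.elim f w) φ a ↔ Holds (Sum.elim f w) φ a')) :
    Isolated L f (Fin.snoc w a : Fin (n + 1) → K) := by
  obtain ⟨χ, hw, hχ⟩ := h
  let up : PFormula L (Fin n) → L.Formula (P ⊕ Fin (n + 1)) := fun θ => θ.2.1.relabel
    (Fin.lastCases (Sum.inr (Fin.last n)) fun j => Sum.inr (θ.2.2 j).castSucc)
  have hup : ∀ (θ : PFormula L (Fin n)) (c : Fin (n + 1) → K),
      (up θ).Realize (Sum.elim f c) ↔ Holds (c ∘ Fin.castSucc) θ (c (Fin.last n)) := fun θ c => by
    simp only [up, Formula.realize_relabel, Holds]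
    refine iff_of_eq (congrArg _ (funext fun j => ?_))
    induction j using Fin.lastCases <;> simp
  refine ⟨χ.relabel (Sum.map id Fin.castSucc) ⊓ up ψ, Formula.realize_inf.2 ⟨?_, ?_⟩,
    fun c hc => ?_⟩
  · rw [Formula.realize_relabel]
    convert hw using 1
    exact funext fun x => by rcases x with x | x <;> simp
  · rw [hup]
    simpa [Function.comp_def] using ha
  · obtain ⟨h1, h2⟩ := Formula.realize_inf.1 hc
    rw [hup] at h2
    rw [Formula.realize_relabel] at h1
    have he := hχ (c ∘ Fin.castSucc) (by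
      convert h1 using 1
      exact funext fun x => by rcases x with x | x <;> rfl)
    have hb : ∀ φ : PFormula L (P ⊕ Fin n), Holds (Sum.elim f w) φ a ↔
        Holds (Sum.elim f (c ∘ Fin.castSucc)) φ (c (Fin.last n)) := by
      intro φ
      have key : ∀ φ : PFormula L (P ⊕ Fin n), Holds (Sum.elim f w) φ a →
          Holds (Sum.elim f (c ∘ Fin.castSucc)) φ (c (Fin.last n)) := by
        intro φ hφ
        let θ := negation (conj fun t : Bool => cond t (mapParams Sum.inr ψ) (negation φ))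
        have hall : ∀ a', Holds (Sum.elim f w) θ a' := fun a' => by
          rw [holds_negation, holds_conj]
          exact fun h => (holds_negation _ φ a').1 (h false) ((hψ a' (h true) φ).1 hφ)
        have := (he.forall_holds θ).1 hall (c (Fin.last n))
        rw [holds_negation, holds_conj] at this
        by_contra hn
        exact this (Bool.forall_bool.2 ⟨(holds_negation _ φ _).2 hn, h2⟩)
      refine ⟨key φ, fun hφ => by_contra fun hn => ?_⟩
      exact (holds_negation _ φ _).1 (key _ ((holds_negation _ φ a).2 hn)) hφ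
    have h3 := (ElemEquiv.extend hb).comp (Sum.elim (fun x => some (Sum.inl x))
      (Fin.lastCases none (fun l => some (Sum.inr l))) : P ⊕ Fin (n + 1) → Option (P ⊕ Fin n))
    convert h3 using 1 <;> refine funext fun x => ?_ <;> rcases x with x | l
    any_goals rfl
    all_goals induction l using Fin.lastCases <;> simp

end

/-- **Isolated types are dense.** -/
theorem exists_isolating (hst : IsOmegaStable T) (K : Theory.ModelType.{u, v, max u v} T)
    {Q : Type (max u v)} (g : Q → K) (φ : PFormula L Q) (hφ : ∃ a, Holds g φ a) :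
    ∃ (a : K) (ψ : PFormula L Q), Holds g φ a ∧ Holds g ψ a ∧
      ∀ a', Holds g ψ a' → ∀ χ : PFormula L Q, (Holds g χ a ↔ Holds g χ a') := by
  classical
  by_contra! h
  let Good := {ψ : PFormula L Q // (∃ a, Holds g ψ a) ∧ ∀ a, Holds g ψ a → Holds g φ a}
  have hsplit : ∀ θ : Good, ∃ θ₁ θ₂ : Good, (∀ a, Holds g θ₁.1 a → Holds g θ.1 a) ∧
      (∀ a, Holds g θ₂.1 a → Holds g θ.1 a) ∧
      ∀ a, Holds g θ₁.1 a → ¬Holds g θ₂.1 a := by
    intro θ
    obtain ⟨a, ha⟩ := θ.2.1
    obtain ⟨a', ha', χ, hχ⟩ := h a θ.1 (θ.2.2 a ha) ha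
    obtain ⟨a₁, a₂, ha₁, ha₂, h1, h2⟩ : ∃ a₁ a₂, Holds g θ.1 a₁ ∧ Holds g θ.1 a₂ ∧
        Holds g χ a₁ ∧ ¬Holds g χ a₂ := by
      rcases hχ with ⟨h1, h2⟩ | ⟨h1, h2⟩
      exacts [⟨a, a', ha, ha', h1, h2⟩, ⟨a', a, ha', ha, h2, h1⟩]
    let ξ : PFormula L Q → PFormula L Q := fun χ => conj fun t : Bool => cond t θ.1 χ
    have hξ : ∀ χ b, Holds g (ξ χ) b ↔ Holds g θ.1 b ∧ Holds g χ b := fun χ b => by
      rw [holds_conj]
      exact ⟨fun h => ⟨h true, h false⟩, fun h => Bool.forall_bool.2 ⟨h.2, h.1⟩⟩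
    exact ⟨⟨ξ χ, ⟨a₁, (hξ _ _).2 ⟨ha₁, h1⟩⟩, fun b hb => θ.2.2 b ((hξ _ b).1 hb).1⟩,
      ⟨ξ (negation χ), ⟨a₂, (hξ _ _).2 ⟨ha₂, (holds_negation g χ a₂).2 h2⟩⟩,
        fun b hb => θ.2.2 b ((hξ _ b).1 hb).1⟩,
      fun b hb => ((hξ _ b).1 hb).1, fun b hb => ((hξ _ b).1 hb).1,
      fun b hb hb' => (holds_negation g χ b).1 ((hξ _ b).1 hb').2 ((hξ _ b).1 hb).2⟩
  choose θ₁ θ₂ h1 h2 h12 using hsplit
  let node : List Bool → Good := fun s =>
    List.rec ⟨φ, hφ, fun _ => id⟩ (fun b _ θ => cond b (θ₁ θ) (θ₂ θ)) s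
  refine not_isOmegaStable_of_tree K g (fun s => (node s).1) (fun s => (node s).2.1)
    (fun b s a => ?_) (fun s a => h12 (node s) a) hst
  cases b
  exacts [h2 (node s) a, h1 (node s) a]

/-- Every tuple from the set is isolated over the family. -/
def IsAtomicSet (L : Language.{u, v}) {P : Type w} {K : Type w'} [L.Structure K] (f : P → K)
    (C : Set K) : Prop :=
  ∀ (k : ℕ) (a : Fin k → K), (∀ i, a i ∈ C) → Isolated L f a

theorem IsAtomicSet.insert {P : Type w} {K : Type w'} [L.Structure K] {f : P → K} {C : Set K}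
    (hC : IsAtomicSet L f C) (hfC : Set.range f ⊆ C) {a : K} (ψ : PFormula L C)
    (ha : Holds Subtype.val ψ a)
    (hψ : ∀ a', Holds Subtype.val ψ a' →
      ∀ φ : PFormula L C, (Holds Subtype.val φ a ↔ Holds Subtype.val φ a')) :
    IsAtomicSet L f (insert a C) := by
  classical
  intro k t ht
  let F : Finset K :=
    (Finset.univ.image t ∪ Finset.univ.image fun j => (ψ.2.2 j : K)).filter (· ∈ C)
  let w : Fin F.card → K := fun j => (F.equivFin.symm j).1
  have hwC : ∀ j, w j ∈ C := fun j => (Finset.mem_filter.1 (F.equivFin.symm j).2).2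
  have hψF : ∀ j, (ψ.2.2 j : K) ∈ F := fun j => Finset.mem_filter.2
    ⟨Finset.mem_union_right _ (Finset.mem_image_of_mem _ (Finset.mem_univ j)), (ψ.2.2 j).2⟩
  let ψ' : PFormula L (Fin F.card) := ⟨ψ.1, ψ.2.1, fun j => F.equivFin ⟨_, hψF j⟩⟩
  have hψ' : ∀ b, Holds w ψ' b ↔ Holds Subtype.val ψ b := fun b =>
    iff_of_eq (congrArg _ (funext fun j => by
      induction j using Fin.lastCases with
      | last => simp [ψ']
      | cast j => simp [ψ', w]))
  have h := (hC _ w hwC).snoc ψ' ((hψ' a).2 ha) fun a' ha' φ => by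
    let inC : P ⊕ Fin F.card → C :=
      Sum.elim (fun p => ⟨f p, hfC ⟨p, rfl⟩⟩) fun j => ⟨w j, hwC j⟩
    have e : Sum.elim f w = Subtype.val ∘ inC := funext fun x => by rcases x with x | x <;> rfl
    rw [e]
    exact hψ a' ((hψ' a').1 ha') (mapParams inC φ)
  have hσ : ∀ i, ∃ l, (Fin.snoc w a : Fin (F.card + 1) → K) l = t i := by
    intro i
    by_cases hi : t i ∈ C
    · exact ⟨(F.equivFin ⟨t i, Finset.mem_filter.2
        ⟨Finset.mem_union_left _ (Finset.mem_image_of_mem _ (Finset.mem_univ i)), hi⟩⟩).castSucc,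
        by simp [w]⟩
    · exact ⟨Fin.last _, by simpa using ((ht i).resolve_right hi).symm⟩
  choose σ hσ using hσ
  rw [show t = (Fin.snoc w a : Fin (F.card + 1) → K) ∘ σ from funext fun i => (hσ i).symm]
  exact h.comp σ

/-- **Atomic submodels exist over every family.** -/
theorem exists_atomic (hst : IsOmegaStable T) (K : Theory.ModelType.{u, v, max u v} T)
    {P : Type (max u v)} (f : P → K) :
    ∃ S : L.ElementarySubstructure K, Set.range f ⊆ S ∧
      ∀ (k : ℕ) (a : Fin k → K), (∀ i, a i ∈ S) → Isolated L f a := by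
  classical
  have h₀ : IsAtomicSet L f (Set.range f) := fun k a ha => by
    choose p hp using ha
    rw [show a = f ∘ p from funext fun i => (hp i).symm]
    exact isolated_of_range p
  have hunion : ∀ c ⊆ {C | IsAtomicSet L f C ∧ Set.range f ⊆ C}, IsChain (· ⊆ ·) c →
      c.Nonempty → ∃ ub ∈ {C | IsAtomicSet L f C ∧ Set.range f ⊆ C}, ∀ C ∈ c, C ⊆ ub := by
    intro c hc hchain hne
    refine ⟨⋃₀ c, ⟨fun k a ha => ?_, ?_⟩, fun C hC => Set.subset_sUnion_of_mem hC⟩
    · choose D hD haD using ha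
      obtain ⟨E, hE, hsub⟩ := hchain.directedOn.exists_mem_subset_of_finite_of_subset_sUnion hne
        (Set.finite_range a) (by rintro _ ⟨i, rfl⟩; exact ⟨D i, hD i, haD i⟩)
      exact (hc hE).1 k a fun i => hsub ⟨i, rfl⟩
    · obtain ⟨D, hD⟩ := hne
      exact (hc hD).2.trans (Set.subset_sUnion_of_mem hD)
  obtain ⟨C, hfC, ⟨hC, -⟩, hmax⟩ := zorn_subset_nonempty _ hunion _ ⟨h₀, subset_rfl⟩
  have hclosed : ∀ φ : PFormula L C, (∃ a, Holds Subtype.val φ a) →
      ∃ ω : C, Holds Subtype.val φ ω.1 := fun φ hφ => by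
    obtain ⟨a, ψ, haφ, haψ, hψ⟩ := exists_isolating hst K _ φ hφ
    have hsub : Set.range f ⊆ C := hfC
    have := hmax ⟨hC.insert hsub ψ haψ hψ, hsub.trans (Set.subset_insert _ _)⟩
      (Set.subset_insert _ _) (Set.mem_insert a C)
    exact ⟨⟨a, this⟩, haφ⟩
  obtain ⟨S, hS⟩ := exists_elementary_range (Subtype.val : C → K) hclosed
  rw [Subtype.range_coe] at hS
  refine ⟨S, hS ▸ hfC, fun k a ha => hC k a fun i => ?_⟩
  rw [← hS]
  exact ha i

end FA.Morley
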