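import Fermat.Agent.Morley.Maps
import Mathlib.SetTheory.Cardinal.Regular

/-!
# Saturated models of one size are isomorphic

Back and forth along a well ordering of the size.
-/

set_option autoImplicit false

universe u v w

namespace FA.Morley

open FirstOrder Language Cardinal

variable {L : Language.{u, v}} {T : L.Theory}

/-- **Saturated models of one infinite size are isomorphic.** -/
theorem nonempty_equiv_of_saturated (hT : T.IsComplete)
    (M N : Theory.ModelType.{u, v, max u v} T) {μ : Cardinal.{max u v}} (hμ : ℵ₀ ≤ μ)
    (hM : #M = μ) (hN : #N = μ) (sM : IsSaturated L μ M) (sN : IsSaturated L μ N) :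
    Nonempty (M ≃[L] N) := by
  classical
  let W := μ.ord.ToType
  obtain ⟨eM⟩ : Nonempty (W ≃ M) := Cardinal.eq.1 ((mk_ord_toType μ).trans hM.symm)
  obtain ⟨eN⟩ : Nonempty (W ≃ N) := Cardinal.eq.1 ((mk_ord_toType μ).trans hN.symm)
  let sel : ∀ {P : Type (max u v)}, (P → M) → (P → N) → M → N → N × M := fun {P} f g a b =>
    let b' := if h : ∃ b', ElemEquiv L (fun o : Option P => o.elim a f)
        (fun o : Option P => o.elim b' g) then h.choose else b
    (b', if h : ∃ a', ElemEquiv L (fun o : Option (Option P) => o.elim b fun o => o.elim b' g)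
        (fun o : Option (Option P) => o.elim a' fun o => o.elim a f) then h.choose else a)
  let leftPair : M × (N × M) → Bool → M := fun c t => cond t c.1 c.2.2
  let rightPair : N × (N × M) → Bool → N := fun c t => cond t c.2.1 c.1
  let new : W → N × M := wellFounded_lt.fix fun i rec =>
    sel (fun q : Set.Iio i × Bool => leftPair (eM q.1, rec q.1 q.1.2) q.2)
      (fun q : Set.Iio i × Bool => rightPair (eN q.1, rec q.1 q.1.2) q.2) (eM i) (eN i)
  let left : W → Bool → M := fun i => leftPair (eM i, new i)
  let right : W → Bool → N := fun i => rightPair (eN i, new i)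
  have hnew : ∀ i, new i = sel (fun q : Set.Iio i × Bool => left q.1.1 q.2)
      (fun q : Set.Iio i × Bool => right q.1.1 q.2) (eM i) (eN i) := fun i => by
    simp only [new]
    rw [WellFounded.fix_eq]
  -- coherence from the stages
  have hunion : ∀ (S : Set W), (∀ i ∈ S, ElemEquiv L (fun q : Set.Iic i × Bool => left q.1.1 q.2)
      fun q : Set.Iic i × Bool => right q.1.1 q.2) →
      ElemEquiv L (fun q : S × Bool => left q.1.1 q.2) fun q : S × Bool => right q.1.1 q.2 := by
    intro S hS k φ a
    rcases k with - | k
    · have e₁ : φ.Realize ((fun q : S × Bool => left q.1.1 q.2) ∘ a) ↔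
          M ⊨ (φ.relabel Fin.elim0 : L.Sentence) := by
        rw [Sentence.Realize, Formula.realize_relabel]
        exact iff_of_eq (congrArg _ (Subsingleton.elim _ _))
      have e₂ : φ.Realize ((fun q : S × Bool => right q.1.1 q.2) ∘ a) ↔
          N ⊨ (φ.relabel Fin.elim0 : L.Sentence) := by
        rw [Sentence.Realize, Formula.realize_relabel]
        exact iff_of_eq (congrArg _ (Subsingleton.elim _ _))
      rw [e₁, e₂, hT.realize_sentence_iff, hT.realize_sentence_iff]
    · let m := Finset.univ.sup' Finset.univ_nonempty fun j => ((a j).1 : W)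
      have hm : m ∈ S := by
        obtain ⟨j, -, hj⟩ := Finset.exists_mem_eq_sup' Finset.univ_nonempty fun j => ((a j).1 : W)
        change Finset.univ.sup' _ _ ∈ S
        rw [hj]
        exact (a j).1.2
      exact hS m hm (k + 1) φ fun j =>
        (⟨(a j).1, Finset.le_sup' (fun j => ((a j).1 : W)) (Finset.mem_univ j)⟩, (a j).2)
  have hsize : ∀ i : W, #(Set.Iio i × Bool) < μ ∧ #(Option (Set.Iio i × Bool)) < μ := by
    intro i
    have h1 : #(Set.Iio i) < μ :=
      (mk_Iio_lt i (by rw [mk_ord_toType, Ordinal.type_toType])).trans_eq (mk_ord_toType _)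
    have h2 : #(Set.Iio i × Bool) < μ := by
      rw [mk_prod, lift_uzero]
      refine mul_lt_of_lt hμ h1 (lt_of_lt_of_le ?_ hμ)
      simp
    refine ⟨h2, ?_⟩
    rw [mk_option]
    exact add_lt_of_lt hμ h2 (one_lt_aleph0.trans_le hμ)
  have hstage : ∀ i, ElemEquiv L (fun q : Set.Iic i × Bool => left q.1.1 q.2)
      fun q : Set.Iic i × Bool => right q.1.1 q.2 := fun i => by
    induction i using (wellFounded_lt (α := W)).induction with
    | _ i ih =>
      have h0 := hunion (Set.Iio i) fun j hj => ih j hj
      have h1 := h0.exists_extend sN (hsize i).1 (eM i)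
      have h2 := h1.choose_spec.symm.exists_extend sM (hsize i).2 (eN i)
      have e1 : (new i).1 = h1.choose := by
        rw [hnew i]
        exact dif_pos h1
      have e2 : (new i).2 = h2.choose := by
        rw [hnew i]
        simp only [sel, dif_pos h1, dif_pos h2]
      let r : Set.Iic i × Bool → Option (Option (Set.Iio i × Bool)) := fun q =>
        if h : (q.1 : W) < i then some (some (⟨q.1, h⟩, q.2))
        else cond q.2 (some none) none
      have hl : (fun q : Set.Iic i × Bool => left q.1.1 q.2) = (fun o : Option (Option _) =>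
          o.elim h2.choose fun o => o.elim (eM i) fun q : Set.Iio i × Bool => left q.1.1 q.2) ∘ r :=
        funext fun q => by
          obtain ⟨⟨j, hj⟩, t⟩ := q
          by_cases h : j < i
          · simp [r, h]
          · obtain rfl : j = i := le_antisymm hj (not_lt.1 h)
            cases t <;> simp [r, left, leftPair, e2]
      have hr : (fun q : Set.Iic i × Bool => right q.1.1 q.2) = (fun o : Option (Option _) =>
          o.elim (eN i) fun o =>
            o.elim h1.choose fun q : Set.Iio i × Bool => right q.1.1 q.2) ∘ r :=
        funext fun q => by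
          obtain ⟨⟨j, hj⟩, t⟩ := q
          by_cases h : j < i
          · simp [r, h]
          · obtain rfl : j = i := le_antisymm hj (not_lt.1 h)
            cases t <;> simp [r, right, rightPair, e1]
      rw [hl, hr]
      exact h2.choose_spec.symm.comp r
  have hall := (hunion Set.univ fun i _ => hstage i).comp fun q : W × Bool =>
    ((⟨q.1, trivial⟩ : (Set.univ : Set W)), q.2)
  let F : M → N := fun a => right (eM.symm a) true
  have hF : ∀ i t, F (left i t) = right i t := by
    intro i t
    refine ((hall.apply_eq_iff (eM.symm (left i t), true) (i, t)).1 ?_)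
    simp [left, leftPair]
  have hinj : Function.Injective F := fun a b hab => by
    simpa [left, leftPair] using
      (hall.apply_eq_iff (eM.symm a, true) (eM.symm b, true)).2 hab
  have helem : ∀ (k : ℕ) (φ : L.Formula (Fin k)) (a : Fin k → M),
      φ.Realize (F ∘ a) ↔ φ.Realize a := fun k φ a => by
    have := hall k φ fun j => (eM.symm (a j), true)
    simp [Function.comp_def, left, leftPair] at this
    exact this.symm
  refine ⟨⟨Equiv.ofBijective F ⟨hinj, fun b => ⟨left (eN.symm b) false, ?_⟩⟩, fun {m} g x => ?_,
    fun {m} R x => ?_⟩⟩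
  · rw [hF]
    simp [right, rightPair]
  · exact ElementaryEmbedding.map_fun ⟨F, helem⟩ g x
  · exact ElementaryEmbedding.map_rel ⟨F, helem⟩ R x

end FA.Morley
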