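import Mathlib.Data.Fintype.Pigeonhole
import Mathlib.Data.Fin.Tuple.Basic
import Mathlib.Data.Nat.Nth
import Mathlib.Order.Fin.Tuple

/-!
# The infinite theorem of Ramsey

For increasing tuples of natural numbers, with finitely many colours.
-/

set_option autoImplicit false

universe u

namespace FA.Morley

/-- **Ramsey's theorem.** Every finite colouring of increasing tuples is constant on an infinite
set. -/
theorem exists_homogeneous {C : Type u} [Finite C] [Nonempty C] : ∀ (n : ℕ) (col : (Fin n → ℕ) → C),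
    ∃ e : ℕ → ℕ, StrictMono e ∧ ∃ c, ∀ i : Fin n → ℕ, StrictMono i → col (e ∘ i) = c
  | 0, col => ⟨id, strictMono_id, col Fin.elim0, fun i _ => by
      rw [Subsingleton.elim (id ∘ i) Fin.elim0]⟩
  | n + 1, col => by
    classical
    have hstep : ∀ e : {e : ℕ → ℕ // StrictMono e}, ∃ (e' : {e : ℕ → ℕ // StrictMono e}) (c : C),
        (∃ g : ℕ → ℕ, StrictMono g ∧ e'.1 = e.1 ∘ g ∧ ∀ m, 0 < g m) ∧
          ∀ i : Fin n → ℕ, StrictMono i → col (Fin.cons (e.1 0) (e'.1 ∘ i)) = c := by
      intro e
      obtain ⟨h, hh, c, hc⟩ := exists_homogeneous n fun i =>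
        col (Fin.cons (e.1 0) fun l => e.1 (i l + 1))
      refine ⟨⟨fun m => e.1 (h m + 1), fun a b hab => e.2 (Nat.add_lt_add_right (hh hab) 1)⟩, c,
        ⟨fun m => h m + 1, fun a b hab => Nat.add_lt_add_right (hh hab) 1, rfl,
          fun m => Nat.succ_pos _⟩,
        fun i hi => hc i hi⟩
    choose next colour hg hcol using hstep
    let st : ℕ → {e : ℕ → ℕ // StrictMono e} := fun k =>
      Nat.rec ⟨id, strictMono_id⟩ (fun _ e => next e) k
    have hsub : ∀ k m, k ≤ m → ∃ g : ℕ → ℕ, StrictMono g ∧ (st m).1 = (st k).1 ∘ g := by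
      intro k m hkm
      induction hkm with
      | refl => exact ⟨id, strictMono_id, rfl⟩
      | @step m _ ih =>
        obtain ⟨g, hgm, he⟩ := ih
        obtain ⟨g', hg', he', -⟩ := hg (st m)
        exact ⟨g ∘ g', hgm.comp hg', by
          rw [← Function.comp_assoc, ← he]
          exact he'⟩
    have ha : StrictMono fun k => (st k).1 0 := strictMono_nat_of_lt_succ fun k => by
      obtain ⟨g, -, he, hpos⟩ := hg (st k)
      change (st k).1 0 < (next (st k)).1 0
      rw [he]
      exact (st k).2 (hpos 0)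
    obtain ⟨c, hc⟩ := Finite.exists_infinite_fiber fun k => colour (st k)
    have hinf : {k | colour (st k) = c}.Infinite := Set.infinite_coe_iff.1 hc
    let s : ℕ → ℕ := Nat.nth fun k => colour (st k) = c
    have hs : StrictMono s := Nat.nth_strictMono hinf
    refine ⟨fun m => (st (s m)).1 0, ha.comp hs, c, fun i hi => ?_⟩
    have hk : ∀ l : Fin n, ∃ x, (st (s (i 0) + 1)).1 x = (st (s (i l.succ))).1 0 := fun l => by
      obtain ⟨g, -, he⟩ := hsub (s (i 0) + 1) (s (i l.succ)) (hs (hi (Fin.succ_pos l)))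
      exact ⟨g 0, (congrFun he 0).symm⟩
    choose x hx using hk
    have hxmono : StrictMono x := fun l l' hll' => by
      rw [← (st (s (i 0) + 1)).2.lt_iff_lt, hx, hx]
      exact ha (hs (hi (Fin.succ_lt_succ_iff.2 hll')))
    have e : (fun m => (st (s m)).1 0) ∘ i =
        Fin.cons ((st (s (i 0))).1 0) ((next (st (s (i 0)))).1 ∘ x) := funext fun l => by
      induction l using Fin.cases with
      | zero => simp
      | succ l => simpa using (hx l).symm
    rw [e, hcol _ x hxmono]
    exact Nat.nth_mem_of_infinite hinf (i 0)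

end FA.Morley
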