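import Fermat.Agent.Morley.Maps
import Fermat.Agent.Morley.Ramsey
import Mathlib.ModelTheory.Skolem

/-!
# Models of Ehrenfeucht and Mostowski

A countable theory with an infinite model has models of every infinite size realising only
countably many types over each countable set: Skolem hulls of well ordered indiscernibles.
-/

set_option autoImplicit false

universe u v w w'

namespace FA.Morley

open FirstOrder Language Cardinal Interpolation

variable {L : Language.{u, v}} {T : L.Theory}

/-- The order type decides, for indiscernibles. -/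
theorem realize_iff_of_sameOrder {L' : Language.{u, v}} {K : Type w} [L'.Structure K] {I : Type w'}
    [LinearOrder I] {x : I → K}
    (hx : ∀ (n : ℕ) (φ : L'.Formula (Fin n)) (i j : Fin n → I), StrictMono i → StrictMono j →
      (φ.Realize (x ∘ i) ↔ φ.Realize (x ∘ j)))
    {P : Type} [Fintype P] (φ : L'.Formula P) (a b : P → I) (h : ∀ p q, a p ≤ a q ↔ b p ≤ b q) :
    φ.Realize (x ∘ a) ↔ φ.Realize (x ∘ b) := by
  classical
  let F : Finset I := Finset.univ.image a
  have hsur : ∀ l, ∃ p, a p = F.orderEmbOfFin rfl l := fun l => by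
    obtain ⟨p, -, hp⟩ := Finset.mem_image.1 (F.orderEmbOfFin_mem rfl l)
    exact ⟨p, hp⟩
  choose sec hsec using hsur
  have hρ : ∀ p, ∃ l, F.orderEmbOfFin rfl l = a p := fun p => by
    have hp : a p ∈ Set.range (F.orderEmbOfFin rfl) := by
      rw [Finset.range_orderEmbOfFin]
      exact Finset.mem_image_of_mem a (Finset.mem_univ p)
    exact hp
  choose ρ hρ' using hρ
  have hb : ∀ p, b (sec (ρ p)) = b p := fun p =>
    le_antisymm ((h _ _).1 (by rw [hsec, hρ'])) ((h _ _).1 (by rw [hsec, hρ']))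
  have hmono : StrictMono fun l => b (sec l) := fun l m hlm => by
    refine lt_of_not_ge fun hle => ?_
    have := (h _ _).2 hle
    rw [hsec, hsec] at this
    exact hlm.not_ge ((F.orderEmbOfFin rfl).le_iff_le.1 this)
  rw [show x ∘ a = (x ∘ F.orderEmbOfFin rfl) ∘ ρ from funext fun p => by simp [hρ'],
    show x ∘ b = (x ∘ fun l => b (sec l)) ∘ ρ from funext fun p => by simp [hb] ]
  exact Formula.realize_relabel.symm.trans
    ((hx _ (φ.relabel ρ) _ _ (F.orderEmbOfFin rfl).strictMono hmono).trans Formula.realize_relabel)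

/-- A homogeneous sequence for finitely many properties of tuples. -/
theorem exists_homogeneous_finset (t : Finset (Σ n : ℕ, (Fin n → ℕ) → Prop)) :
    ∃ e : ℕ → ℕ, StrictMono e ∧ ∀ c ∈ t, ∀ i j : Fin c.1 → ℕ, StrictMono i → StrictMono j →
      (c.2 (e ∘ i) ↔ c.2 (e ∘ j)) := by
  classical
  induction t using Finset.induction with
  | empty => exact ⟨id, strictMono_id, by simp⟩
  | insert c t _ ih =>
    obtain ⟨e, he, hhom⟩ := ih
    obtain ⟨e', he', b, hb⟩ := exists_homogeneous c.1 fun i => decide (c.2 (e ∘ i))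
    refine ⟨e ∘ e', he.comp he', fun d hd i j hi hj => ?_⟩
    rcases Finset.mem_insert.1 hd with rfl | hd
    · have h1 := (hb i hi).trans (hb j hj).symm
      simpa [Function.comp_assoc] using h1
    · exact hhom d hd (e' ∘ i) (e' ∘ j) (he'.comp hi) (he'.comp hj)

/-- **Indiscernibles exist.** -/
theorem exists_indiscernible_model {L' : Language.{u, v}} (T' : L'.Theory)
    (M : Theory.ModelType.{u, v, max u v} T') [Infinite M] (I : Type (max u v)) [LinearOrder I] :
    ∃ (K : Theory.ModelType.{u, v, max u v} T') (x : I → K), Function.Injective x ∧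
      ∀ (n : ℕ) (φ : L'.Formula (Fin n)) (i j : Fin n → I), StrictMono i → StrictMono j →
        (φ.Realize (x ∘ i) ↔ φ.Realize (x ∘ j)) := by
  classical
  obtain ⟨K, x, hx⟩ := exists_realize T'
    ({φ : L'.Formula I | ∃ i j : I, i ≠ j ∧ (Term.equal (.var i) (.var j)).not = φ} ∪
    {φ : L'.Formula I | ∃ (n : ℕ) (ψ : L'.Formula (Fin n)) (i j : Fin n → I), StrictMono i ∧
      StrictMono j ∧ (ψ.relabel i).iff (ψ.relabel j) = φ}) fun s hs => by
    let s2 := s.filter fun φ => ∃ (n : ℕ) (ψ : L'.Formula (Fin n)) (i j : Fin n → I),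
      StrictMono i ∧ StrictMono j ∧ (ψ.relabel i).iff (ψ.relabel j) = φ
    have h2 : ∀ φ : s2, ∃ (n : ℕ) (ψ : L'.Formula (Fin n)) (i j : Fin n → I),
      StrictMono i ∧ StrictMono j ∧ (ψ.relabel i).iff (ψ.relabel j) = φ.1 :=
        fun φ => (Finset.mem_filter.1 φ.2).2
    choose n ψ i j hi hj hφ using h2
    let s1 := s.filter fun φ => ∃ i j : I, i ≠ j ∧ (Term.equal (.var i) (.var j)).not = φ
    have h1 : ∀ φ : s1, ∃ i j : I, i ≠ j ∧ (Term.equal (.var i) (.var j)).not = φ.1 :=
      fun φ => (Finset.mem_filter.1 φ.2).2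
    choose p q hpq hφ1 using h1
    let F : Finset I :=
      (Finset.univ.biUnion fun φ : s2 => Finset.univ.image (i φ) ∪ Finset.univ.image (j φ)) ∪
        Finset.univ.biUnion fun φ : s1 => {p φ, q φ}
    let a : ℕ → M := Infinite.natEmbedding M
    obtain ⟨e, he, hhom⟩ := exists_homogeneous_finset (Finset.univ.image fun φ : s2 =>
      (⟨n φ, fun t => (ψ φ).Realize (a ∘ t)⟩ : Σ n : ℕ, (Fin n → ℕ) → Prop))
    let rank : I → ℕ := fun l => (F.filter (· < l)).card
    have hrank : ∀ l ∈ F, ∀ m, l < m → rank l < rank m := fun l hl m hlm =>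
      Finset.card_lt_card ((Finset.ssubset_iff_of_subset
        (Finset.monotone_filter_right F fun b _ hb => hb.trans hlm)).2
          ⟨l, Finset.mem_filter.2 ⟨hl, hlm⟩, fun h => lt_irrefl l (Finset.mem_filter.1 h).2⟩)
    refine ⟨M, fun l => a (e (rank l)), fun φ hφs => ?_⟩
    rcases hs hφs with h | h
    · have hm : φ ∈ s1 := Finset.mem_filter.2 ⟨hφs, h⟩
      have e1 : (Term.equal (.var (p ⟨φ, hm⟩)) (.var (q ⟨φ, hm⟩))).not = φ := hφ1 ⟨φ, hm⟩
      rw [← e1, Formula.realize_not, Formula.realize_equal]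
      simp only [Term.realize_var]
      intro heq
      have hreq := he.injective ((Infinite.natEmbedding M).injective heq)
      have hpF : p ⟨φ, hm⟩ ∈ F := Finset.mem_union_right _
        (Finset.mem_biUnion.2 ⟨_, Finset.mem_univ _, Finset.mem_insert_self _ _⟩)
      have hqF : q ⟨φ, hm⟩ ∈ F := Finset.mem_union_right _ (Finset.mem_biUnion.2
        ⟨_, Finset.mem_univ _, Finset.mem_insert_of_mem (Finset.mem_singleton_self _)⟩)
      rcases lt_or_gt_of_ne (hpq ⟨φ, hm⟩) with h | h
      · exact (hrank _ hpF _ h).ne hreq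
      · exact (hrank _ hqF _ h).ne hreq.symm
    · have hm : φ ∈ s2 := Finset.mem_filter.2 ⟨hφs, h⟩
      have e1 : ((ψ ⟨φ, hm⟩).relabel (i ⟨φ, hm⟩)).iff ((ψ ⟨φ, hm⟩).relabel (j ⟨φ, hm⟩)) = φ :=
        hφ ⟨φ, hm⟩
      rw [← e1, Formula.realize_iff, Formula.realize_relabel, Formula.realize_relabel]
      exact hhom _ (Finset.mem_image_of_mem _ (Finset.mem_univ _)) (rank ∘ i ⟨φ, hm⟩)
        (rank ∘ j ⟨φ, hm⟩)
        (fun l m hlm => hrank _ (Finset.mem_union_left _ (Finset.mem_biUnion.2
          ⟨_, Finset.mem_univ _, Finset.mem_union_left _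
            (Finset.mem_image_of_mem _ (Finset.mem_univ l))⟩)) _ (hi _ hlm))
        (fun l m hlm => hrank _ (Finset.mem_union_left _ (Finset.mem_biUnion.2
          ⟨_, Finset.mem_univ _, Finset.mem_union_right _
            (Finset.mem_image_of_mem _ (Finset.mem_univ l))⟩)) _ (hj _ hlm))
  refine ⟨K, x, fun l m hlm => by_contra fun hne => ?_, fun n φ i j hi hj => ?_⟩
  · exact (Formula.realize_not.1 (hx _ (.inl ⟨l, m, hne, rfl⟩)))
      (Formula.realize_equal.2 hlm)
  · simpa [Formula.realize_iff, Formula.realize_relabel] using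
      hx _ (.inr ⟨n, φ, i, j, hi, hj, rfl⟩)

/-- The sentence that a Skolem function works. -/
noncomputable def skolemAxiom {n : ℕ} (ψ : L.BoundedFormula Empty (n + 1)) :
    (L.sum L.skolem₁).Sentence :=
  Formula.iAlls (Fin n) ((Formula.imp
    ((LHom.sumInl : L →ᴸ L.sum L.skolem₁).onFormula
      (existsFormula (⟨n, ofBounded ψ, id⟩ : PFormula L (Fin n))))
    (((LHom.sumInl : L →ᴸ L.sum L.skolem₁).onFormula (ofBounded ψ)).subst
      (Fin.lastCases (Term.func (L := L.sum L.skolem₁) (Sum.inr ψ) Term.var) Term.var))).relabel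
    Sum.inr)

theorem realize_skolemAxiom {K : Type w} [L.Structure K] [(L.sum L.skolem₁).Structure K]
    [(LHom.sumInl : L →ᴸ L.sum L.skolem₁).IsExpansionOn K] {n : ℕ}
    (ψ : L.BoundedFormula Empty (n + 1)) :
    K ⊨ skolemAxiom ψ ↔ ∀ z : Fin n → K,
      (∃ a, ψ.Realize (default : Empty → K) (Fin.snoc z a)) →
        ψ.Realize (default : Empty → K)
          (Fin.snoc z (Structure.funMap (L := L.sum L.skolem₁) (Sum.inr ψ) z)) := by
  simp only [skolemAxiom, Sentence.Realize, Formula.realize_iAlls, Formula.realize_relabel,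
    Sum.elim_comp_inr, Formula.realize_imp]
  refine forall_congr' fun z => imp_congr ?_ ?_
  · rw [LHom.realize_onFormula, realize_existsFormula]
    simp only [realize_ofBounded]
  · rw [Formula.Realize, BoundedFormula.realize_subst, ← Formula.Realize, LHom.realize_onFormula,
      realize_ofBounded]
    refine iff_of_eq (congrArg _ (funext fun i => ?_))
    induction i using Fin.lastCases <;> simp

/-- **Models with few types.** -/
theorem exists_model_few_types [Countable L.Symbols] (M : Theory.ModelType.{u, v, max u v} T)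
    [Infinite M] {κ : Cardinal.{max u v}} (hκ : ℵ₀ ≤ κ) :
    ∃ E : Theory.ModelType.{u, v, max u v} T, #E = κ ∧ ∀ B : Set E, B.Countable →
      {p | ∃ a : E, typeAt L (Subtype.val : B → E) a = p}.Countable := by
  classical
  let M' : Theory.ModelType.{max u v, v, max u v} ((L.sum L.skolem₁).completeTheory M) :=
    Theory.ModelType.of _ M
  have : Infinite M' := ‹Infinite M›
  let I := κ.ord.ToType
  obtain ⟨K, x, hinj, hind⟩ := exists_indiscernible_model _ M' I
  let : L.Structure K := (LHom.sumInl : L →ᴸ L.sum L.skolem₁).reduct K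
  have htrans : ∀ σ : L.Sentence, M ⊨ σ → K ⊨ σ := fun σ hσ => by
    have h1 : (LHom.sumInl : L →ᴸ L.sum L.skolem₁).onSentence σ ∈
        (L.sum L.skolem₁).completeTheory M :=
      (LHom.realize_onSentence M _ σ).2 hσ
    exact (LHom.realize_onSentence K _ σ).1 (K.is_model.realize_of_mem _ h1)
  have hK : K ⊨ T := ⟨fun σ hσ => htrans σ (M.is_model.realize_of_mem σ hσ)⟩
  have hsk : ∀ (n : ℕ) (ψ : L.BoundedFormula Empty (n + 1)), K ⊨ skolemAxiom ψ := fun n ψ => by
    refine K.is_model.realize_of_mem _ ((realize_skolemAxiom (K := M) ψ).2 fun z hz => ?_)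
    exact Classical.epsilon_spec (p := fun a => ψ.Realize default (Fin.snoc z a)) hz
  let S : (L.sum L.skolem₁).Substructure K := Substructure.closure _ (Set.range x)
  let S₀ : L.Substructure K := (LHom.sumInl : L →ᴸ L.sum L.skolem₁).substructureReduct S
  let E' : L.ElementarySubstructure K := S₀.toElementarySubstructure fun n ψ y a ha =>
    ⟨⟨Structure.funMap (L := L.sum L.skolem₁) (Sum.inr ψ) fun i => (y i : K),
        S.fun_mem (Sum.inr ψ) _ fun i => (y i).2⟩,
      (realize_skolemAxiom ψ).1 (hsk n ψ) _ ⟨a, ha⟩⟩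
  have : Nonempty I := mk_ne_zero_iff.1 (by
    rw [mk_ord_toType]; exact (aleph0_pos.trans_le hκ).ne')
  have : Nonempty E' := ⟨⟨x (Classical.arbitrary I), Substructure.subset_closure ⟨_, rfl⟩⟩⟩
  let E := Theory.ModelType.of T E'
  have hFun : #(Σ n, (L.sum L.skolem₁).Functions n) ≤ ℵ₀ :=
    card_functions_sum_skolem₁_le.trans (max_le le_rfl (by
      simpa [Language.card] using mk_le_aleph0 (α := L.Symbols)))
  have : Countable (Σ n, (L.sum L.skolem₁).Functions n) := mk_le_aleph0_iff.1 hFun
  have hcard : #E = κ := by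
    refine le_antisymm ?_ ?_
    · change #S ≤ κ
      refine (lift_le.{max u v}.1 (Substructure.lift_card_closure_le.trans ?_))
      simp only [lift_id, max_le_iff]
      refine ⟨hκ, (add_le_add (mk_range_le.trans (mk_ord_toType κ).le) (hFun.trans hκ)).trans ?_⟩
      rw [add_eq_self hκ]
    · rw [← mk_ord_toType κ]
      exact mk_le_of_injective (f := fun i => (⟨x i, Substructure.subset_closure ⟨i, rfl⟩⟩ : E'))
        fun i j h => hinj (congrArg Subtype.val h)
  refine ⟨E, hcard, fun B hB => ?_⟩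
  have hrep : ∀ a : E', ∃ (k : ℕ) (t : (L.sum L.skolem₁).Term (Fin k)) (i : Fin k → I),
      StrictMono i ∧ t.realize (x ∘ i) = (a : K) := by
    rintro ⟨a, ha⟩
    have ha' : a ∈ (S : Set K) := ha
    rw [show (S : Set K) = Set.range (@Term.realize (L.sum L.skolem₁) K _ _
      ((↑) : Set.range x → K)) from Substructure.coe_closure_eq_range_term_realize] at ha'
    obtain ⟨t, rfl⟩ := ha'
    choose idx hidx using fun b : Set.range x => b.2
    let F : Finset I := t.varFinset.image idx
    refine ⟨F.card, t.restrictVar fun b =>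
      ((F.orderIsoOfFin rfl).symm ⟨idx b, Finset.mem_image_of_mem _ b.2⟩),
      F.orderEmbOfFin rfl, (F.orderEmbOfFin rfl).strictMono, ?_⟩
    refine Term.realize_restrictVar _ fun b => ?_
    simp only [Function.comp_apply]
    rw [← hidx b.1]
    congr 1
    simp [Finset.orderEmbOfFin]
  choose k t idx hmono hval using hrep
  let J : Set I := ⋃ b : B, Set.range (idx b.1)
  have hJ : J.Countable := by
    have := hB.to_subtype
    exact Set.countable_iUnion fun b => Set.countable_range _
  have := hJ.to_subtype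
  let pos : I → J ⊕ Option J := fun i =>
    if hi : i ∈ J then .inl ⟨i, hi⟩
    else .inr (if h : {j : J | i < (j : I)}.Nonempty then
      some (wellFounded_lt.min _ h) else none)
  have hpos : ∀ i i' : I, pos i = pos i' →
      ∀ j : J, ((i ≤ j ↔ i' ≤ j) ∧ ((j : I) ≤ i ↔ (j : I) ≤ i')) := by
    intro i i' h j
    by_cases hi : i ∈ J
    · by_cases hi' : i' ∈ J
      · simp only [pos, dif_pos hi, dif_pos hi', Sum.inl.injEq, Subtype.mk.injEq] at h
        subst h
        exact ⟨Iff.rfl, Iff.rfl⟩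
      · simp [pos, hi, hi'] at h
    by_cases hi' : i' ∈ J
    · simp [pos, hi, hi'] at h
    have key : ∀ (m m' : I), pos m = pos m' → m ∉ J → m' ∉ J → m < j → m' < j := by
      intro m m' hmm hm hm' hlt
      have hne : {c : J | m < (c : I)}.Nonempty := ⟨j, hlt⟩
      simp only [pos, dif_neg hm, dif_neg hm', Sum.inr.injEq, dif_pos hne] at hmm
      by_cases hne' : {c : J | m' < (c : I)}.Nonempty
      · rw [dif_pos hne', Option.some_inj] at hmm
        have h1 : m' < (wellFounded_lt.min _ hne' : J) := wellFounded_lt.min_mem _ hne'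
        rw [← hmm] at h1
        exact h1.trans_le (not_lt.1 (wellFounded_lt.not_lt_min {c : J | m < (c : I)} hlt))
      · simp [dif_neg hne'] at hmm
    have hne1 : i ≠ j := fun e => hi (e ▸ j.2)
    have hne2 : i' ≠ j := fun e => hi' (e ▸ j.2)
    have e1 : i < j ↔ i' < j := ⟨key i i' h hi hi', key i' i h.symm hi' hi⟩
    refine ⟨?_, ?_⟩
    · rw [hne1.le_iff_lt, hne2.le_iff_lt, e1]
    · rw [← not_lt, ← not_lt (a := i'), e1]
  let code : E' → Σ n, (L.sum L.skolem₁).Term (Fin n) × (Fin n → J ⊕ Option J) := fun a =>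
    ⟨k a, t a, pos ∘ idx a⟩
  have hcode : ∀ a a', code a = code a' →
      typeAt L (Subtype.val : B → E) a = typeAt L (Subtype.val : B → E) a' := by
    intro a a' h
    have hk : k a = k a' := congrArg Sigma.fst h
    refine Set.ext fun φ => ?_
    obtain ⟨m, φ, b⟩ := φ
    -- both sides are one formula at two tuples of indices
    let P := (Σ l : Fin m, Fin (k (b l).1)) ⊕ Fin (k a)
    let τ : Fin (m + 1) → (L.sum L.skolem₁).Term P := Fin.lastCases ((t a).relabel Sum.inr)
      fun l => (t (b l).1).relabel fun q => Sum.inl ⟨l, q⟩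
    let Φ : (L.sum L.skolem₁).Formula P :=
      ((LHom.sumInl : L →ᴸ L.sum L.skolem₁).onFormula φ).subst τ
    have hΦ : ∀ (c : E') (ic : Fin (k a) → I), (t a).realize (x ∘ ic) = (c : K) →
        (Φ.Realize (x ∘ Sum.elim (fun q => idx (b q.1).1 q.2) ic) ↔
          Holds (Subtype.val : B → E) ⟨m, φ, b⟩ c) := by
      intro c ic hc
      simp only [Φ, Formula.Realize, BoundedFormula.realize_subst]
      rw [← Formula.Realize, LHom.realize_onFormula]
      change _ ↔ φ.Realize (Fin.snoc ((Subtype.val : B → E) ∘ b) c : Fin (m + 1) → E')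
      rw [← E'.subtype.map_formula φ]
      refine iff_of_eq (congrArg _ (funext fun l => ?_))
      induction l using Fin.lastCases with
      | last => simp [τ, Term.realize_relabel, Function.comp_def, ← hc]
      | cast l => simp [τ, Term.realize_relabel, Function.comp_def, ← hval]
    let i' : Fin (k a) → I := idx a' ∘ Fin.cast hk
    have aux : ∀ {n n' : ℕ} (t : (L.sum L.skolem₁).Term (Fin n))
        (t' : (L.sum L.skolem₁).Term (Fin n')) (g : Fin n → I) (g' : Fin n' → I) (e : n = n'),
        (⟨n, t, pos ∘ g⟩ : Σ n, (L.sum L.skolem₁).Term (Fin n) × (Fin n → J ⊕ Option J)) =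
          ⟨n', t', pos ∘ g'⟩ →
        t.realize (x ∘ g' ∘ Fin.cast e) = t'.realize (x ∘ g') ∧
          pos ∘ g' ∘ Fin.cast e = pos ∘ g := by
      intro n n' t t' g g' e heq
      subst e
      obtain ⟨h1, h2⟩ := Prod.mk.inj (eq_of_heq (Sigma.mk.inj heq).2)
      subst h1
      exact ⟨rfl, h2.symm⟩
    have ht' : (t a).realize (x ∘ i') = (a' : K) ∧ pos ∘ i' = pos ∘ idx a ∧ StrictMono i' :=
      ⟨(aux (t a) (t a') (idx a) (idx a') hk h).1.trans (hval a'),
        (aux (t a) (t a') (idx a) (idx a') hk h).2, (hmono a').comp (Fin.cast_strictMono hk)⟩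
    show Holds _ _ a ↔ Holds _ _ a'
    refine (hΦ a (idx a) (hval a)).symm.trans
      ((realize_iff_of_sameOrder hind Φ _ _ fun p q => ?_).trans (hΦ a' i' ht'.1))
    have hp' : ∀ l, pos (i' l) = pos (idx a l) := congrFun ht'.2.1
    rcases p with p | p <;> rcases q with q | q
    · exact Iff.rfl
    · exact ((hpos _ _ (hp' q).symm ⟨_, Set.mem_iUnion.2 ⟨b p.1, p.2, rfl⟩⟩).2)
    · exact ((hpos _ _ (hp' p).symm ⟨_, Set.mem_iUnion.2 ⟨b q.1, q.2, rfl⟩⟩).1)
    · exact (hmono a).le_iff_le.trans ht'.2.2.le_iff_le.symm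
  refine (Set.countable_range fun c : Set.range code =>
    typeAt L (Subtype.val : B → E) c.2.choose).mono ?_
  rintro p ⟨a, rfl⟩
  exact ⟨⟨code a, a, rfl⟩, hcode _ _ (⟨a, rfl⟩ : code a ∈ Set.range code).choose_spec⟩

end FA.Morley
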