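import Fermat.Agent.OmittingTypes.RyllNardzewski
import Fermat.Agent.Interpolation.Amalgam
import Mathlib.Order.Filter.Ultrafilter.Basic

/-!
# Parametrised formulas, types and elementary maps

A formula in one variable with parameters from an indexed family is a formula with a tuple of
indices. A type is a complete finitely satisfiable set of them; the ultrafilters give them.
-/

set_option autoImplicit false

universe u v w w' w'' x

namespace FA.Morley

open FirstOrder Language Cardinal

variable {L : Language.{u, v}}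

/-- A formula in one variable with parameters among `P`. -/
abbrev PFormula (L : Language.{u, v}) (P : Type w) : Type max u v w :=
  Σ k : ℕ, L.Formula (Fin (k + 1)) × (Fin k → P)

variable {P : Type w} {Q : Type w'} {M : Type w''} [L.Structure M] {N : Type x} [L.Structure N]

/-- A parametrised formula holds of a point. -/
def Holds (f : P → M) (φ : PFormula L P) (a : M) : Prop :=
  φ.2.1.Realize (Fin.snoc (f ∘ φ.2.2) a : Fin (φ.1 + 1) → M)

/-- The solutions of a parametrised formula. -/
def solutions (f : P → M) (φ : PFormula L P) : Set M :=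
  {a | Holds f φ a}

/-- Change of parameters. -/
def mapParams (g : P → Q) (φ : PFormula L P) : PFormula L Q :=
  ⟨φ.1, φ.2.1, g ∘ φ.2.2⟩

theorem holds_mapParams (g : P → Q) (f : Q → M) (φ : PFormula L P) (a : M) :
    Holds f (mapParams g φ) a ↔ Holds (f ∘ g) φ a :=
  Iff.rfl

/-- The negation. -/
def negation (φ : PFormula L P) : PFormula L P :=
  ⟨φ.1, φ.2.1.not, φ.2.2⟩

@[simp] theorem holds_negation (f : P → M) (φ : PFormula L P) (a : M) :
    Holds f (negation φ) a ↔ ¬Holds f φ a :=
  Formula.realize_not

/-- A parametrised formula read off a formula. -/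
def ofFormula {k : ℕ} (ψ : L.Formula (Fin (k + 1))) (a : Fin k → P) : PFormula L P :=
  ⟨k, ψ, a⟩

/-- The type of a point. -/
def typeAt (L : Language.{u, v}) {M : Type w''} [L.Structure M] (f : P → M) (a : M) :
    Set (PFormula L P) :=
  {φ | Holds f φ a}

/-- A type: complete and finitely satisfiable. -/
def IsType (f : P → M) (p : Set (PFormula L P)) : Prop :=
  ∀ s : Finset (PFormula L P), ∃ a, ∀ φ ∈ s, (φ ∈ p ↔ Holds f φ a)

/-- A point realises a type. -/
def Realizes (f : P → M) (p : Set (PFormula L P)) (a : M) : Prop :=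
  ∀ φ, φ ∈ p ↔ Holds f φ a

/-- The types over a family. -/
def typesOver (L : Language.{u, v}) {M : Type w''} [L.Structure M] (f : P → M) :
    Set (Set (PFormula L P)) :=
  {p | IsType f p}

theorem isType_typeAt (f : P → M) (a : M) : IsType f (typeAt L f a) :=
  fun _ => ⟨a, fun _ _ => Iff.rfl⟩

theorem realizes_typeAt (f : P → M) (a : M) : Realizes f (typeAt L f a) a :=
  fun _ => Iff.rfl

theorem IsType.negation_mem_iff {f : P → M} {p : Set (PFormula L P)} (hp : IsType f p)
    (φ : PFormula L P) : negation φ ∈ p ↔ φ ∉ p := by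
  classical
  obtain ⟨a, ha⟩ := hp {φ, negation φ}
  rw [ha _ (by simp), ha _ (by simp), holds_negation]

/-- Formulas with the same solutions are together in a type. -/
theorem IsType.mem_iff_mem {f : P → M} {p : Set (PFormula L P)} (hp : IsType f p)
    {φ ψ : PFormula L P} (h : ∀ a, Holds f φ a ↔ Holds f ψ a) : φ ∈ p ↔ ψ ∈ p := by
  classical
  obtain ⟨a, ha⟩ := hp {φ, ψ}
  rw [ha _ (by simp), ha _ (by simp), h]

theorem IsType.eq_of_subset {f : P → M} {p q : Set (PFormula L P)} (hp : IsType f p)
    (hq : IsType f q) (h : p ⊆ q) : p = q := by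
  refine h.antisymm fun φ hφ => by_contra fun hn => ?_
  exact (hq.negation_mem_iff φ).1 (h ((hp.negation_mem_iff φ).2 hn)) hφ

/-- A finite family as one formula. -/
noncomputable def conj {ι : Type*} [Finite ι] (φ : ι → PFormula L P) : PFormula L P :=
  let e := (Finite.exists_equiv_fin (Σ i, Fin (φ i).1)).choose_spec.some
  ⟨_, Formula.iInf fun i => (φ i).2.1.relabel
    (Fin.lastCases (Fin.last _) fun j => (e ⟨i, j⟩).castSucc),
    fun j => (φ (e.symm j).1).2.2 (e.symm j).2⟩

theorem holds_conj {ι : Type*} [Finite ι] (φ : ι → PFormula L P) (f : P → M) (a : M) :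
    Holds f (conj φ) a ↔ ∀ i, Holds f (φ i) a := by
  simp only [Holds, conj, Formula.realize_iInf, Formula.realize_relabel]
  refine forall_congr' fun i => iff_of_eq (congrArg _ (funext fun j => ?_))
  induction j using Fin.lastCases with
  | last => simp
  | cast j =>
    simp only [Function.comp_apply, Fin.lastCases_castSucc, Fin.snoc_castSucc]
    rw [Equiv.symm_apply_apply]

open Classical in
/-- A formula, or its negation if it is outside `p`. -/
noncomputable def signed (p : Set (PFormula L P)) (φ : PFormula L P) : PFormula L P :=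
  if φ ∈ p then φ else negation φ

theorem holds_signed (p : Set (PFormula L P)) (φ : PFormula L P) (f : P → M) (a : M) :
    Holds f (signed p φ) a ↔ (φ ∈ p ↔ Holds f φ a) := by
  by_cases h : φ ∈ p <;> simp [signed, h]

/-- A finite set as one formula, with signs. -/
noncomputable def signedConj (s : Finset (PFormula L P)) (p : Set (PFormula L P)) :
    PFormula L P :=
  conj fun φ : s => signed p φ.1

theorem holds_signedConj (s : Finset (PFormula L P)) (p : Set (PFormula L P)) (f : P → M) (a : M) :
    Holds f (signedConj s p) a ↔ ∀ φ ∈ s, (φ ∈ p ↔ Holds f φ a) := by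
  simp only [signedConj, holds_conj, holds_signed, Subtype.forall]

theorem IsType.exists_holds_signedConj {f : P → M} {p : Set (PFormula L P)} (hp : IsType f p)
    (s : Finset (PFormula L P)) : ∃ a, Holds f (signedConj s p) a :=
  (hp s).imp fun a ha => (holds_signedConj s p f a).2 ha

/-- A formula that follows from members belongs. -/
theorem IsType.signedConj_mem {f : P → M} {p : Set (PFormula L P)} (hp : IsType f p)
    (s : Finset (PFormula L P)) : signedConj s p ∈ p := by
  classical
  obtain ⟨a, ha⟩ := hp (insert (signedConj s p) s)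
  exact (ha _ (Finset.mem_insert_self _ _)).2
    ((holds_signedConj s p f a).2 fun φ hφ => ha φ (Finset.mem_insert_of_mem hφ))

/-- The formula saying that there is a solution. -/
noncomputable def existsFormula (φ : PFormula L P) : L.Formula (Fin φ.1) :=
  (φ.2.1.relabel (Fin.lastCases (Sum.inr (0 : Fin 1)) Sum.inl)).iExs (Fin 1)

theorem realize_existsFormula (φ : PFormula L P) (y : Fin φ.1 → M) :
    (existsFormula φ).Realize y ↔ ∃ a, φ.2.1.Realize (Fin.snoc y a : Fin (φ.1 + 1) → M) := by
  have e : ∀ z : Fin 1 → M,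
      Sum.elim y z ∘ Fin.lastCases (Sum.inr (0 : Fin 1)) Sum.inl = Fin.snoc y (z 0) := fun z =>
    funext fun i => by induction i using Fin.lastCases <;> simp
  simp only [existsFormula, Formula.realize_iExs, Formula.realize_relabel, e]
  exact ⟨fun ⟨z, hz⟩ => ⟨z 0, hz⟩, fun ⟨a, ha⟩ => ⟨fun _ => a, ha⟩⟩

theorem holds_existsFormula (f : P → M) (φ : PFormula L P) :
    (existsFormula φ).Realize (f ∘ φ.2.2) ↔ ∃ a, Holds f φ a :=
  realize_existsFormula φ _

/-- Two families are elementarily equivalent. -/
def ElemEquiv (L : Language.{u, v}) {M : Type w''} [L.Structure M] {N : Type x} [L.Structure N]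
    (f : P → M) (g : P → N) : Prop :=
  ∀ (k : ℕ) (φ : L.Formula (Fin k)) (a : Fin k → P), φ.Realize (f ∘ a) ↔ φ.Realize (g ∘ a)

variable {f : P → M} {g : P → N}

theorem ElemEquiv.symm (h : ElemEquiv L f g) : ElemEquiv L g f :=
  fun k φ a => (h k φ a).symm

theorem ElemEquiv.comp (h : ElemEquiv L f g) (r : Q → P) : ElemEquiv L (f ∘ r) (g ∘ r) :=
  fun k φ a => h k φ (r ∘ a)

theorem elemEquiv_refl (f : P → M) : ElemEquiv L f f :=
  fun _ _ _ => Iff.rfl

theorem ElemEquiv.trans {K : Type*} [L.Structure K] {k : P → K} (h : ElemEquiv L f g)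
    (h' : ElemEquiv L g k) : ElemEquiv L f k :=
  fun n φ a => (h n φ a).trans (h' n φ a)

theorem ElemEquiv.exists_holds (h : ElemEquiv L f g) (φ : PFormula L P) :
    (∃ a, Holds f φ a) ↔ ∃ b, Holds g φ b := by
  rw [← holds_existsFormula, ← holds_existsFormula, h]

theorem ElemEquiv.forall_holds (h : ElemEquiv L f g) (φ : PFormula L P) :
    (∀ a, Holds f φ a) ↔ ∀ b, Holds g φ b := by
  rw [← not_iff_not]
  simpa using h.exists_holds (negation φ)

theorem ElemEquiv.isType_iff (h : ElemEquiv L f g) {p : Set (PFormula L P)} :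
    IsType f p ↔ IsType g p := by
  have key : ∀ s : Finset (PFormula L P), (∃ a, ∀ φ ∈ s, (φ ∈ p ↔ Holds f φ a)) ↔
      ∃ b, ∀ φ ∈ s, (φ ∈ p ↔ Holds g φ b) := fun s => by
    simpa only [holds_signedConj] using h.exists_holds (signedConj s p)
  exact forall_congr' key

theorem ElemEquiv.apply_eq_iff (h : ElemEquiv L f g) (i j : P) : f i = f j ↔ g i = g j := by
  simpa [Formula.realize_equal] using
    h 2 (Term.equal (.var 0) (.var 1)) ![i, j]

/-- With equal parameters the formulas are the same. -/
theorem holds_congr {f f' : P → M} (φ : PFormula L P) (h : ∀ j, f (φ.2.2 j) = f' (φ.2.2 j))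
    (a : M) : Holds f φ a ↔ Holds f' φ a := by
  simp only [Holds, show f ∘ φ.2.2 = f' ∘ φ.2.2 from funext h]

/-- An ultrafilter gives a type. -/
def ultraType (f : P → M) (U : Ultrafilter M) : Set (PFormula L P) :=
  {φ | solutions f φ ∈ U}

theorem isType_ultraType (f : P → M) (U : Ultrafilter M) : IsType f (ultraType (L := L) f U) := by
  classical
  intro s
  have h : (⋂ φ ∈ s, if φ ∈ ultraType f U then solutions f φ else (solutions f φ)ᶜ) ∈ U := by
    refine (Filter.biInter_finset_mem s).2 fun φ _ => ?_
    split_ifs with hφ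
    · exact hφ
    · exact Ultrafilter.compl_mem_iff_notMem.2 hφ
  obtain ⟨a, ha⟩ := U.nonempty_of_mem h
  refine ⟨a, fun φ hφ => ?_⟩
  have := Set.mem_iInter₂.1 ha φ hφ
  split_ifs at this with hm
  · exact iff_of_true hm this
  · exact iff_of_false hm this

/-- A finitely satisfiable set of formulas is contained in a type. -/
theorem exists_type_superset [Nonempty M] (f : P → M) (S : Set (PFormula L P))
    (h : ∀ s : Finset (PFormula L P), (s : Set _) ⊆ S → ∃ a, ∀ φ ∈ s, Holds f φ a) :
    ∃ p, IsType f p ∧ S ⊆ p := by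
  classical
  have hne : (Filter.generate (solutions f '' S)).NeBot := by
    refine Filter.generate_neBot_iff.2 fun t ht htf => ?_
    choose ψ hψ hψe using fun A : htf.toFinset => ht (htf.mem_toFinset.1 A.2)
    obtain ⟨a, ha⟩ := h (Finset.univ.image ψ) fun φ hφ => by
      obtain ⟨A, -, rfl⟩ := Finset.mem_image.1 hφ
      exact hψ A
    refine ⟨a, fun A hA => ?_⟩
    have e : solutions f (ψ ⟨A, htf.mem_toFinset.2 hA⟩) = A := hψe _
    rw [← e]
    exact ha _ (Finset.mem_image_of_mem _ (Finset.mem_univ _))
  let U := Ultrafilter.of (Filter.generate (solutions f '' S))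
  exact ⟨ultraType f U, isType_ultraType f U, fun φ hφ =>
    Ultrafilter.of_le _ (Filter.mem_generate_of_mem ⟨φ, hφ, rfl⟩)⟩

end FA.Morley
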