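import Fermat.Agent.Morley.Saturation

/-!
# Indiscernible sequences in stable theories

In an omega-stable theory a large set has a large definable part that no formula splits. The
average type of that part does not split over a finite set, so a sequence of realisations,
each over the earlier ones, is indiscernible.
-/

set_option autoImplicit false

universe u v w

namespace FA.Morley

open FirstOrder Language Cardinal

variable {L : Language.{u, v}} {T : L.Theory}

/-- Stability passes to stronger theories. -/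
theorem IsOmegaStable.mono {T' : L.Theory} (h : IsOmegaStable T) (hT : T ⊆ T') :
    IsOmegaStable T' :=
  fun M B hB => h (M.subtheoryModel hT) B hB

/-- Empty families in models of a complete theory are equivalent. -/
theorem elemEquiv_of_isEmpty (hT : T.IsComplete) (M N : Theory.ModelType.{u, v, max u v} T)
    {P : Type w} [IsEmpty P] (f : P → M) (g : P → N) : ElemEquiv L f g := by
  intro k φ a
  rcases k with - | k
  · have e₁ : φ.Realize (f ∘ a) ↔ M ⊨ (φ.relabel Fin.elim0 : L.Sentence) := by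
      rw [Sentence.Realize, Formula.realize_relabel]
      exact iff_of_eq (congrArg _ (Subsingleton.elim _ _))
    have e₂ : φ.Realize (g ∘ a) ↔ N ⊨ (φ.relabel Fin.elim0 : L.Sentence) := by
      rw [Sentence.Realize, Formula.realize_relabel]
      exact iff_of_eq (congrArg _ (Subsingleton.elim _ _))
    rw [e₁, e₂, hT.realize_sentence_iff, hT.realize_sentence_iff]
  · exact isEmptyElim (a 0)

/-- **An average type.** Some complete set of formulas is matched, off every small set, on every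
small set of formulas. -/
theorem exists_average_type (hst : IsOmegaStable T) (M : Theory.ModelType.{u, v, max u v} T)
    {μ : Cardinal.{max u v}} (hμ : ℵ₀ ≤ μ) (hM : μ < #M) :
    ∃ q : Set (PFormula L M), ∀ (s : Set (PFormula L M)) (X : Set M), #s ≤ μ → #X ≤ μ →
      ∃ a ∉ X, ∀ φ ∈ s, (φ ∈ q ↔ Holds id φ a) := by
  classical
  let Big := {θ : PFormula L M // μ < #(solutions id θ)}
  obtain ⟨θ, hθ⟩ : ∃ θ : Big, ∀ ψ : PFormula L M,
      #({a | Holds id θ.1 a ∧ Holds id ψ a} : Set M) ≤ μ ∨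
        #({a | Holds id θ.1 a ∧ ¬Holds id ψ a} : Set M) ≤ μ := by
    by_contra! h
    have hsplit : ∀ θ : Big, ∃ θ₁ θ₂ : Big, (∀ a, Holds id θ₁.1 a → Holds id θ.1 a) ∧
        (∀ a, Holds id θ₂.1 a → Holds id θ.1 a) ∧
        ∀ a, Holds id θ₁.1 a → ¬Holds id θ₂.1 a := fun θ => by
      obtain ⟨ψ, h1, h2⟩ := h θ
      let ξ : PFormula L M → PFormula L M := fun χ => conj fun t : Bool => cond t θ.1 χ
      have hξ : ∀ χ a, Holds id (ξ χ) a ↔ Holds id θ.1 a ∧ Holds id χ a := fun χ a => by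
        rw [holds_conj]
        exact ⟨fun h => ⟨h true, h false⟩, fun h => Bool.forall_bool.2 ⟨h.2, h.1⟩⟩
      have hbig₁ : μ < #(solutions id (ξ ψ)) :=
        h1.trans_le (mk_le_mk_of_subset fun a ha => (hξ ψ a).2 ha)
      have hbig₂ : μ < #(solutions id (ξ (negation ψ))) :=
        h2.trans_le (mk_le_mk_of_subset fun a ha =>
          (hξ _ a).2 ⟨ha.1, (holds_negation id ψ a).2 ha.2⟩)
      exact ⟨⟨_, hbig₁⟩, ⟨_, hbig₂⟩, fun a ha => ((hξ _ a).1 ha).1, fun a ha => ((hξ _ a).1 ha).1,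
        fun a ha hb => (holds_negation id ψ a).1 ((hξ _ a).1 hb).2 ((hξ _ a).1 ha).2⟩
    choose θ₁ θ₂ h1 h2 h12 using hsplit
    let root : Big := ⟨conj fun i : Empty => i.elim, hM.trans_le (by
      rw [← mk_univ]
      exact mk_le_mk_of_subset fun a _ => (holds_conj _ id a).2 fun i => i.elim)⟩
    let node : List Bool → Big := fun s => List.rec root (fun b _ θ => cond b (θ₁ θ) (θ₂ θ)) s
    refine not_isOmegaStable_of_tree M id (fun s => (node s).1) (fun s => ?_) (fun b s a => ?_)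
      (fun s a => h12 (node s) a) hst
    · obtain ⟨⟨a, ha⟩⟩ := mk_ne_zero_iff.1 (zero_le.trans_lt (node s).2).ne'
      exact ⟨a, ha⟩
    · cases b
      exacts [h2 (node s) a, h1 (node s) a]
  let q : Set (PFormula L M) :=
    {ψ | μ < #({a | Holds id θ.1 a ∧ Holds id ψ a} : Set M)}
  refine ⟨q, fun s X hs hX => ?_⟩
  have hbad : ∀ φ, #({a | Holds id θ.1 a ∧ ¬(φ ∈ q ↔ Holds id φ a)} : Set M) ≤ μ := fun φ => by
    by_cases hφ : φ ∈ q
    · simp only [hφ, true_iff]
      exact (hθ φ).resolve_left (not_le.2 hφ)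
    · simp only [hφ, false_iff, not_not]
      exact not_lt.1 hφ
  by_contra! hne
  let bad : s → Set M := fun φ => {a | Holds id θ.1 a ∧ ¬(φ.1 ∈ q ↔ Holds id φ.1 a)}
  have hU : #(⋃ φ, bad φ : Set M) ≤ μ :=
    (mk_iUnion_le bad).trans
      ((mul_le_mul' hs (ciSup_le' fun φ : s => hbad φ.1)).trans (mul_eq_self hμ).le)
  have hcover : solutions id θ.1 ⊆ X ∪ ⋃ φ, bad φ := fun a ha => by
    by_cases haX : a ∈ X
    · exact .inl haX
    · obtain ⟨φ, hφ, hne⟩ := hne a haX
      refine .inr (Set.mem_iUnion.2 ⟨⟨φ, hφ⟩, ha, ?_⟩)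
      tauto
  have hle : #(solutions id θ.1) ≤ μ :=
    (mk_le_mk_of_subset hcover).trans
      ((mk_union_le _ _).trans ((add_le_add hX hU).trans (add_eq_self hμ).le))
  exact θ.2.not_ge hle

/-- **Types do not split over some finite set.** -/
theorem exists_finite_support [Countable L.Symbols] (hst : IsOmegaStable T)
    (M : Theory.ModelType.{u, v, max u v} T) [Infinite M] {q : Set (PFormula L M)}
    (hq : IsType id q) :
    ∃ D : Set M, D.Finite ∧ ∀ (k : ℕ) (φ : L.Formula (Fin (k + 1))) (a b : Fin k → M),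
      ElemEquiv L (Sum.elim (Subtype.val : D → M) a) (Sum.elim Subtype.val b) →
        ((⟨k, φ, a⟩ : PFormula L M) ∈ q ↔ (⟨k, φ, b⟩ : PFormula L M) ∈ q) := by
  classical
  by_contra! h
  have h' : ∀ D : Set M, D.Finite → ∃ (k : ℕ) (φ : L.Formula (Fin (k + 1))) (a b : Fin k → M),
      ElemEquiv L (Sum.elim (Subtype.val : D → M) a) (Sum.elim Subtype.val b) ∧
        (⟨k, φ, a⟩ : PFormula L M) ∈ q ∧ (⟨k, φ, b⟩ : PFormula L M) ∉ q := fun D hD => by
    obtain ⟨k, φ, a, b, hab, hne⟩ := h D hD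
    by_cases ha : (⟨k, φ, a⟩ : PFormula L M) ∈ q
    · exact ⟨k, φ, a, b, hab, ha, by tauto⟩
    · exact ⟨k, φ, b, a, hab.symm, by tauto, ha⟩
  let T' := L.completeTheory M
  have hTT' : T ⊆ T' := fun σ hσ => M.is_model.realize_of_mem σ hσ
  let M' : Theory.ModelType.{u, v, max u v} T' := Theory.ModelType.of T' M
  have : Infinite M' := ‹Infinite M›
  have hst' := hst.mono hTT'
  obtain ⟨N, -, hN⟩ := exists_countablySaturated hst' M' (aleph_one_le_iff.1 le_rfl)
  let State := {z : (φ : PFormula L M) × (Fin φ.1 → N) // z.1 ∈ q ∧ ElemEquiv L z.1.2.2 z.2}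
  let node : State → PFormula L N := fun z => ⟨z.1.1.1, z.1.1.2.1, z.1.2⟩
  have hne : ∀ z : State, ∃ y, Holds id (node z) y := fun z => by
    obtain ⟨x, hx⟩ := hq {z.1.1}
    exact (z.2.2.exists_holds ⟨z.1.1.1, z.1.1.2.1, id⟩).1
      ⟨x, (hx _ (Finset.mem_singleton_self _)).1 z.2.1⟩
  have hstep : ∀ z : State, ∃ z₁ z₂ : State, (∀ y, Holds id (node z₁) y → Holds id (node z) y) ∧
      (∀ y, Holds id (node z₂) y → Holds id (node z) y) ∧
      ∀ y, Holds id (node z₁) y → ¬Holds id (node z₂) y := by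
    rintro ⟨⟨⟨n, ψ, c⟩, d⟩, hzq, hcd⟩
    obtain ⟨k, φ, a, b, hab, ha, hb⟩ := h' (Set.range c) (Set.finite_range c)
    have hab' : ElemEquiv L (Sum.elim c a) (Sum.elim c b) := by
      convert hab.comp (Sum.map (Set.rangeFactorization c) id) using 1 <;>
        exact funext fun x => by rcases x with x | x <;> rfl
    obtain ⟨d', hd'⟩ := hcd.exists_extend_fin hN k a
    have mk : ∀ (φ' : L.Formula (Fin (k + 1))) (e : Fin k → M),
        (⟨k, φ', e⟩ : PFormula L M) ∈ q → ElemEquiv L (Sum.elim c e) (Sum.elim d d') →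
        ∃ z' : State, ∀ y, Holds id (node z') y ↔
          Holds d ⟨n, ψ, id⟩ y ∧ Holds d' ⟨k, φ', id⟩ y := by
      intro φ' e he hE
      let χ : PFormula L (Fin n ⊕ Fin k) :=
        conj fun t : Bool => cond t ⟨n, ψ, Sum.inl⟩ ⟨k, φ', Sum.inr⟩
      refine ⟨⟨⟨mapParams (Sum.elim c e) χ, Sum.elim d d' ∘ χ.2.2⟩, ?_, hE.comp χ.2.2⟩,
        fun y => (holds_conj (fun t : Bool => cond t
          (⟨n, ψ, Sum.inl⟩ : PFormula L (Fin n ⊕ Fin k)) ⟨k, φ', Sum.inr⟩)
            (Sum.elim d d') y).trans ?_⟩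
      · obtain ⟨x, hx⟩ := hq {mapParams (Sum.elim c e) χ, ⟨n, ψ, c⟩, ⟨k, φ', e⟩}
        refine (hx _ (by simp)).2 ((holds_conj _ (Sum.elim c e) x).2 (Bool.forall_bool.2
          ⟨?_, ?_⟩))
        exacts [(hx _ (by simp)).1 he, (hx _ (by simp)).1 hzq]
      · exact ⟨fun hy => ⟨hy true, hy false⟩, fun hy => Bool.forall_bool.2 ⟨hy.2, hy.1⟩⟩
    obtain ⟨z₁, hz₁⟩ := mk φ a ha hd'
    obtain ⟨z₂, hz₂⟩ := mk φ.not b ((hq.negation_mem_iff ⟨k, φ, b⟩).2 hb) (hab'.symm.trans hd')
    exact ⟨z₁, z₂, fun y hy => ((hz₁ y).1 hy).1, fun y hy => ((hz₂ y).1 hy).1,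
      fun y h1 h2 => (holds_negation d' ⟨k, φ, id⟩ y).1 ((hz₂ y).1 h2).2 ((hz₁ y).1 h1).2⟩
  choose z₁ z₂ h1 h2 h12 using hstep
  let top : PFormula L M := ⟨0, ⊤, Fin.elim0⟩
  have htop : top ∈ q := by
    obtain ⟨x, hx⟩ := hq {top}
    exact (hx _ (Finset.mem_singleton_self _)).2 (Formula.realize_top.2 trivial)
  let root : State := ⟨⟨top, Fin.elim0⟩, htop,
    elemEquiv_of_isEmpty (completeTheory.isComplete L M) M' N _ _⟩
  let tree : List Bool → State := fun s => List.rec root (fun b _ z => cond b (z₁ z) (z₂ z)) s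
  refine not_isOmegaStable_of_tree N id (fun s => node (tree s)) (fun s => hne _)
    (fun b s y => ?_) (fun s y => h12 (tree s) y) hst'
  cases b
  exacts [h2 (tree s) y, h1 (tree s) y]

/-- **Indiscernibles over a smaller set.** -/
theorem exists_indiscernible [Countable L.Symbols] (hst : IsOmegaStable T)
    (M : Theory.ModelType.{u, v, max u v} T) (A : Set M) (hM : ℵ₀ < #M) (hA : #A < #M) :
    ∃ b : ℕ → M, Function.Injective b ∧ ∀ (n : ℕ) (i j : Fin n → ℕ), StrictMono i →
      StrictMono j → ElemEquiv L (Sum.elim (Subtype.val : A → M) (b ∘ i))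
        (Sum.elim Subtype.val (b ∘ j)) := by
  classical
  have : Infinite M := infinite_iff.2 hM.le
  set μ := max #A ℵ₀
  have hμ : ℵ₀ ≤ μ := le_max_right _ _
  obtain ⟨q, hq⟩ := exists_average_type hst M hμ (max_lt hA hM)
  have hqt : IsType id q := fun s => by
    obtain ⟨a, -, ha⟩ := hq s ∅ ((mk_le_aleph0 (α := (s : Set (PFormula L M)))).trans hμ) (by simp)
    exact ⟨a, ha⟩
  obtain ⟨D, hD, hsup⟩ := exists_finite_support hst M hqt
  let C₀ : Set M := A ∪ D
  have hpick : ∀ C : Set M, ∃ a, #C ≤ μ → a ∉ C ∧ ∀ φ : PFormula L M,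
      (∀ l, φ.2.2 l ∈ C) → (φ ∈ q ↔ Holds id φ a) := by
    intro C
    by_cases hC : #C ≤ μ
    · obtain ⟨a, haC, ha⟩ := hq (Set.range (mapParams (Subtype.val : C → M))) C
        (mk_range_le.trans (mk_pformula_le hμ hC)) hC
      exact ⟨a, fun _ => ⟨haC, fun φ hφ =>
        ha φ ⟨⟨φ.1, φ.2.1, fun l => ⟨φ.2.2 l, hφ l⟩⟩, rfl⟩⟩⟩
    · exact ⟨Classical.arbitrary M, fun h => absurd h hC⟩
  choose pick hpick using hpick
  let C : ℕ → Set M := fun n =>
    Nat.rec (motive := fun _ => Set M) C₀ (fun _ X => insert (pick X) X) n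
  have hC : ∀ n, #(C n) ≤ μ := fun n => by
    induction n with
    | zero =>
      exact (mk_union_le _ _).trans ((add_le_add (le_max_left _ _)
        (hD.countable.le_aleph0.trans hμ)).trans (add_eq_self hμ).le)
    | succ n ih =>
      exact (mk_insert_le).trans ((add_le_add ih (one_le_aleph0.trans hμ)).trans
        (add_eq_self hμ).le)
  have hmono : Monotone C := monotone_nat_of_le_succ fun n => Set.subset_insert _ _
  let b : ℕ → M := fun n => pick (C n)
  have hbC : ∀ {m n}, m < n → b m ∈ C n := fun hmn =>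
    hmono hmn (Set.mem_insert _ _)
  refine ⟨b, fun m n hmn => ?_, ?_⟩
  · by_contra hne
    rcases lt_or_gt_of_ne hne with h | h
    · have h1 := hbC h
      rw [hmn] at h1
      exact (hpick _ (hC n)).1 h1
    · have h1 := hbC h
      rw [← hmn] at h1
      exact (hpick _ (hC m)).1 h1
  -- over the larger set `A ∪ D`
  suffices key : ∀ (n : ℕ) (i j : Fin n → ℕ), StrictMono i → StrictMono j →
      ElemEquiv L (Sum.elim (Subtype.val : C₀ → M) (b ∘ i)) (Sum.elim Subtype.val (b ∘ j)) by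
    intro n i j hi hj
    convert (key n i j hi hj).comp (Sum.map (fun a : A => (⟨a.1, .inl a.2⟩ : C₀)) id) using 1 <;>
      exact funext fun x => by rcases x with x | x <;> rfl
  intro n
  induction n with
  | zero =>
    intro i j _ _
    rw [show b ∘ i = b ∘ j from funext fun l => l.elim0]
    exact elemEquiv_refl _
  | succ n ih =>
    intro i j hi hj
    have h0 := ih (i ∘ Fin.castSucc) (j ∘ Fin.castSucc) (hi.comp Fin.strictMono_castSucc)
      (hj.comp Fin.strictMono_castSucc)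
    set f := Sum.elim (Subtype.val : C₀ → M) (b ∘ i ∘ Fin.castSucc)
    set g := Sum.elim (Subtype.val : C₀ → M) (b ∘ j ∘ Fin.castSucc)
    have hmem : ∀ (i : Fin (n + 1) → ℕ), StrictMono i → ∀ x,
        Sum.elim (Subtype.val : C₀ → M) (b ∘ i ∘ Fin.castSucc) x ∈ C (i (Fin.last n)) := by
      intro i hi x
      rcases x with x | l
      exacts [hmono zero_le x.2, hbC (hi l.castSucc_lt_last)]
    have hb : ∀ φ : PFormula L (C₀ ⊕ Fin n),
        Holds f φ (b (i (Fin.last n))) ↔ Holds g φ (b (j (Fin.last n))) := by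
      rintro ⟨k, φ, c⟩
      refine (((hpick _ (hC _)).2 ⟨k, φ, f ∘ c⟩ fun l => hmem i hi _).symm.trans ?_).trans
        ((hpick _ (hC _)).2 ⟨k, φ, g ∘ c⟩ fun l => hmem j hj _)
      refine hsup k φ (f ∘ c) (g ∘ c) ?_
      convert h0.comp (Sum.elim (fun d : D => Sum.inl (⟨d.1, .inr d.2⟩ : C₀)) c) using 1 <;>
        exact funext fun x => by rcases x with x | x <;> rfl
    have h1 := (ElemEquiv.extend hb).comp
      (Sum.elim (fun x : C₀ => some (Sum.inl x))
        (Fin.lastCases none (fun l => some (Sum.inr l))) : C₀ ⊕ Fin (n + 1) → Option (C₀ ⊕ Fin n))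
    convert h1 using 1 <;> refine funext fun x => ?_ <;> rcases x with x | l
    any_goals rfl
    all_goals induction l using Fin.lastCases <;> simp [f, g]

end FA.Morley
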