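import Fermat.Agent.Morley.Trees

/-!
# Saturation, extension of elementary maps, elementary ranges
-/

set_option autoImplicit false

universe u v w w' x

namespace FA.Morley

open FirstOrder Language Cardinal

variable {L : Language.{u, v}} {T : L.Theory}

open Classical in
/-- The parameters among the free variables. -/
noncomputable def paramFinset {P : Type w} (φ : L.Formula (P ⊕ Fin 1)) : Finset P :=
  (BoundedFormula.freeVarFinset φ).toLeft

open Classical in
/-- A formula over the parameters and one variable, as a parametrised formula. -/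
noncomputable def toPFormula {P : Type w} (φ : L.Formula (P ⊕ Fin 1)) : PFormula L P :=
  ⟨(paramFinset φ).card, BoundedFormula.restrictFreeVar φ fun a =>
    match a with
    | ⟨Sum.inl p, h⟩ => ((paramFinset φ).equivFin ⟨p, Finset.mem_toLeft.2 h⟩).castSucc
    | ⟨Sum.inr _, _⟩ => Fin.last _,
    fun j => ((paramFinset φ).equivFin.symm j).1⟩

theorem holds_toPFormula {P : Type w} {K : Type x} [L.Structure K] (φ : L.Formula (P ⊕ Fin 1))
    (g : P → K) (a : K) :
    Holds g (toPFormula φ) a ↔ φ.Realize (Sum.elim g fun _ => a) := by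
  classical
  refine BoundedFormula.realize_restrictFreeVar (Sum.elim g fun _ => a) fun i => ?_
  rcases i with ⟨p | l, h⟩ <;> simp [toPFormula]

/-- Any finitely many bound variables, as free ones. -/
def ofBounded {n : ℕ} (ψ : L.BoundedFormula Empty (n + 1)) : L.Formula (Fin (n + 1)) :=
  ψ.toFormula.relabel (Sum.elim Empty.elim id)

theorem realize_ofBounded {K : Type x} [L.Structure K] {n : ℕ}
    (ψ : L.BoundedFormula Empty (n + 1)) (y : Fin (n + 1) → K) :
    (ofBounded ψ).Realize y ↔ ψ.Realize (default : Empty → K) y := by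
  rw [ofBounded, Formula.realize_relabel, BoundedFormula.realize_toFormula]
  exact iff_of_eq (congrArg₂ _ (Subsingleton.elim _ _) rfl)

/-- An elementary embedding gives equivalent families. -/
theorem elemEquiv_map {P : Type w} {M : Type w'} {N : Type x} [L.Structure M] [L.Structure N]
    (e : M ↪ₑ[L] N) (f : P → M) : ElemEquiv L f (e ∘ f) :=
  fun _ φ a => (e.map_formula φ (f ∘ a)).symm

/-- Equivalent families agree on formulas with one of their points. -/
theorem ElemEquiv.holds_iff {Ω : Type w} {P : Type*} {M : Type w'} {N : Type x} [L.Structure M]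
    [L.Structure N] {f : Ω → M} {g : Ω → N} (h : ElemEquiv L f g) (φ : PFormula L P) (i : P → Ω)
    (ω : Ω) : Holds (f ∘ i) φ (f ω) ↔ Holds (g ∘ i) φ (g ω) := by
  have := h _ φ.2.1 (Fin.snoc (i ∘ φ.2.2) ω)
  rwa [Fin.comp_snoc, Fin.comp_snoc] at this

/-- A parametrised formula at a point of a family, as a statement. -/
def statementAt {Ω : Type w} {P : Type*} (i : P → Ω) (ω : Ω) (φ : PFormula L P) :
    Σ k, L.Formula (Fin k) × (Fin k → Ω) :=
  ⟨φ.1 + 1, φ.2.1, Fin.snoc (i ∘ φ.2.2) ω⟩

theorem realize_statementAt {Ω : Type w} {P : Type*} {K : Type x} [L.Structure K] (z : Ω → K)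
    (i : P → Ω) (ω : Ω) (φ : PFormula L P) :
    (statementAt i ω φ).2.1.Realize (z ∘ (statementAt i ω φ).2.2) ↔ Holds (z ∘ i) φ (z ω) := by
  simp only [statementAt, Holds, Fin.comp_snoc]
  rfl

/-- A family closed under solutions has elementary range. -/
theorem exists_elementary_range {N : Type w'} [L.Structure N] {Ω : Type w} (x : Ω → N)
    (h : ∀ φ : PFormula L Ω, (∃ a, Holds x φ a) → ∃ ω, Holds x φ (x ω)) :
    ∃ S : L.ElementarySubstructure N, (S : Set N) = Set.range x := by
  let S : L.Substructure N :=
    { carrier := Set.range x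
      fun_mem := fun {m} g xs hxs => by
        choose s hs using hxs
        obtain ⟨j, hj⟩ := h ⟨m, Term.equal (Term.func g fun i => .var i.castSucc)
          (.var (Fin.last m)), s⟩ ⟨Structure.funMap g xs, by
            simp [Holds, Formula.realize_equal, show x ∘ s = xs from funext hs]⟩
        refine ⟨j, ?_⟩
        simpa [Holds, Formula.realize_equal, show x ∘ s = xs from funext hs] using hj.symm }
  refine ⟨S.toElementarySubstructure fun m ψ y a ha => ?_, rfl⟩
  choose s hs using fun i => (y i).2
  have e : x ∘ s = ((↑) : S → N) ∘ y := funext hs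
  obtain ⟨j, hj⟩ := h ⟨m, ofBounded ψ, s⟩
    ⟨a, (realize_ofBounded ψ _).2 (by rwa [e])⟩
  exact ⟨⟨x j, j, rfl⟩, by
    have := (realize_ofBounded ψ _).1 hj
    rwa [e] at this⟩

/-- A family closed under solutions is an elementary submodel. -/
theorem exists_submodel {N : Theory.ModelType.{u, v, max u v} T} {Ω : Type (max u v)} [Nonempty Ω]
    (x : Ω → N) (h : ∀ φ : PFormula L Ω, (∃ a, Holds x φ a) → ∃ ω, Holds x φ (x ω)) :
    ∃ (E : Theory.ModelType.{u, v, max u v} T) (y : Ω → E),
      Function.Surjective y ∧ ElemEquiv L y x := by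
  obtain ⟨S, hS⟩ := exists_elementary_range x h
  have hmem : ∀ ω, x ω ∈ S := fun ω => by
    rw [← SetLike.mem_coe, hS]
    exact ⟨ω, rfl⟩
  have : Nonempty S := ⟨⟨_, hmem (Classical.arbitrary Ω)⟩⟩
  refine ⟨Theory.ModelType.of T S, fun ω => ⟨x ω, hmem ω⟩, ?_, elemEquiv_map S.subtype _⟩
  rintro ⟨a, ha⟩
  rw [← SetLike.mem_coe, hS] at ha
  obtain ⟨ω, rfl⟩ := ha
  exact ⟨ω, rfl⟩

/-- All types over smaller sets are realised. -/
def IsSaturated (L : Language.{u, v}) (κ : Cardinal.{w}) (M : Type w) [L.Structure M] : Prop :=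
  ∀ B : Set M, #B < κ → ∀ p, IsType (Subtype.val : B → M) p →
    ∃ a, Realizes (L := L) (Subtype.val : B → M) p a

theorem IsSaturated.exists_realizes {κ : Cardinal.{w}} {P M : Type w} [L.Structure M]
    (hM : IsSaturated L κ M) (hP : #P < κ) {f : P → M} {p : Set (PFormula L P)}
    (hp : IsType f p) : ∃ a, Realizes f p a := by
  let s : Set.range f → P := fun b => b.2.choose
  have hs : ∀ b, f (s b) = b.1 := fun b => b.2.choose_spec
  obtain ⟨a, ha⟩ := hM (Set.range f) (mk_range_le.trans_lt hP) _ (hp.mapParams s hs)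
  refine ⟨a, fun φ => ?_⟩
  rw [hp.mem_iff_mem (ψ := mapParams (s ∘ Set.rangeFactorization f) φ) fun b =>
    (holds_congr φ (fun j => (hs (Set.rangeFactorization f _)).symm) b).trans
      (holds_mapParams _ f φ b).symm]
  exact ha (mapParams (Set.rangeFactorization f) φ)

/-- An elementary map extends by a point realising the corresponding type. -/
theorem ElemEquiv.extend {P : Type w} {M : Type w'} {N : Type x} [L.Structure M] [L.Structure N]
    {f : P → M} {g : P → N} {a : M} {b : N}
    (hb : ∀ φ : PFormula L P, Holds f φ a ↔ Holds g φ b) :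
    ElemEquiv L (fun o : Option P => o.elim a f) fun o : Option P => o.elim b g := by
  intro k φ c
  let r : Fin k → P ⊕ Fin 1 := fun j => (c j).elim (Sum.inr 0) Sum.inl
  have e : ∀ {K : Type w'} (h : P → K) (d : K),
      (fun o : Option P => o.elim d h) ∘ c = Sum.elim h (fun _ => d) ∘ r := fun h d => funext
    fun j => by simp only [Function.comp_apply, r]; cases c j <;> rfl
  have e' : ∀ {K : Type x} (h : P → K) (d : K),
      (fun o : Option P => o.elim d h) ∘ c = Sum.elim h (fun _ => d) ∘ r := fun h d => funext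
    fun j => by simp only [Function.comp_apply, r]; cases c j <;> rfl
  rw [e, e', ← Formula.realize_relabel, ← Formula.realize_relabel, ← holds_toPFormula,
    ← holds_toPFormula]
  exact hb _

theorem ElemEquiv.exists_extend {κ : Cardinal.{w}} {P M N : Type w} [L.Structure M]
    [L.Structure N] {f : P → M} {g : P → N} (h : ElemEquiv L f g) (hN : IsSaturated L κ N)
    (hP : #P < κ) (a : M) :
    ∃ b, ElemEquiv L (fun o : Option P => o.elim a f) fun o : Option P => o.elim b g := by
  obtain ⟨b, hb⟩ := hN.exists_realizes hP (h.isType_iff.1 (isType_typeAt f a))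
  exact ⟨b, ElemEquiv.extend hb⟩

/-- An elementary map on a countable family extends by finitely many points. -/
theorem ElemEquiv.exists_extend_fin {P : Type w'} [Countable P] {M N : Type w} [L.Structure M]
    [L.Structure N] {f : P → M} {g : P → N} (h : ElemEquiv L f g)
    (hN : IsSaturated L (ℵ_ 1) N) :
    ∀ (k : ℕ) (a : Fin k → M), ∃ b, ElemEquiv L (Sum.elim f a) (Sum.elim g b)
  | 0, a => ⟨Fin.elim0, fun k φ c => by
      have hc : ∀ j, ∃ p, c j = Sum.inl p := fun j => by
        rcases c j with p | l
        exacts [⟨p, rfl⟩, l.elim0]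
      choose p hp using hc
      rw [show c = Sum.inl ∘ p from funext hp]
      exact h k φ p⟩
  | k + 1, a => by
    obtain ⟨b, hb⟩ := exists_extend_fin h hN k (a ∘ Fin.castSucc)
    -- the index set, moved to the universe of the models
    let s : Set M := Set.range (Sum.elim f (a ∘ Fin.castSucc))
    choose sec hsec using fun q : s => q.2
    have hs : #s < ℵ_ 1 :=
      ((Set.countable_range _).le_aleph0).trans_lt (aleph_one_le_iff.1 le_rfl)
    obtain ⟨c, hc⟩ := (hb.comp sec).exists_extend hN hs (a (Fin.last k))
    refine ⟨Fin.snoc b c, fun n φ d => ?_⟩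
    let r : P ⊕ Fin k → Option s := fun q => some ⟨_, q, rfl⟩
    let r' : P ⊕ Fin (k + 1) → Option s :=
      Sum.elim (r ∘ Sum.inl) (Fin.snoc (r ∘ Sum.inr) none)
    have e1 : ∀ q : P ⊕ Fin k, Sum.elim f (a ∘ Fin.castSucc) (sec ⟨_, q, rfl⟩) =
        Sum.elim f (a ∘ Fin.castSucc) q := fun q => hsec ⟨_, q, rfl⟩
    have e2 : ∀ q : P ⊕ Fin k, Sum.elim g b (sec ⟨_, q, rfl⟩) = Sum.elim g b q := fun q =>
      (hb.apply_eq_iff _ _).1 (e1 q)
    have hl : Sum.elim f a ∘ d = (fun o : Option s =>
        o.elim (a (Fin.last k)) (Sum.elim f (a ∘ Fin.castSucc) ∘ sec)) ∘ r' ∘ d :=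
      funext fun j => by
      simp only [Function.comp_apply, r']
      rcases d j with p | l
      · exact (e1 (.inl p)).symm
      · induction l using Fin.lastCases with
        | last => simp
        | cast l => simpa [r] using (e1 (.inr l)).symm
    have hr : Sum.elim g (Fin.snoc b c : Fin (k + 1) → N) ∘ d = (fun o : Option s =>
        o.elim c (Sum.elim g b ∘ sec)) ∘ r' ∘ d := funext fun j => by
      simp only [Function.comp_apply, r']
      rcases d j with p | l
      · exact (e2 (.inl p)).symm
      · induction l using Fin.lastCases with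
        | last => simp
        | cast l => simpa [r] using (e2 (.inr l)).symm
    rw [hl, hr]
    exact hc n φ (r' ∘ d)

/-- Isomorphic models are equally saturated. -/
theorem IsSaturated.of_equiv {κ : Cardinal.{w}} {M N : Type w} [L.Structure M] [L.Structure N]
    (e : M ≃[L] N) (h : IsSaturated L κ M) : IsSaturated L κ N := by
  intro B hB p hp
  have he : ElemEquiv L (fun b : B => e.symm b.1) (Subtype.val : B → N) := fun k φ a => by
    rw [← StrongHomClass.realize_formula e φ]
    exact iff_of_eq (congrArg _ (funext fun j => e.apply_symm_apply _))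
  obtain ⟨a, ha⟩ := h.exists_realizes hB (he.isType_iff.2 hp)
  refine ⟨e a, fun φ => (ha φ).trans ?_⟩
  simp only [Holds]
  rw [← StrongHomClass.realize_formula e]
  refine iff_of_eq (congrArg _ (funext fun j => ?_))
  induction j using Fin.lastCases with
  | last => simp
  | cast j => simp only [Function.comp_apply, Fin.snoc_castSucc]; exact e.apply_symm_apply _

end FA.Morley
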