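import Fermat.Agent.Morley.Maps
import Mathlib.SetTheory.Cardinal.Regular

/-!
# Saturated models over countable sets

An omega-stable theory has, in every uncountable size, a model realising all types over countable
sets: `ℵ₁` steps, each adding realisations of all types over what came before.
-/

set_option autoImplicit false

universe u v w

namespace FA.Morley

open FirstOrder Language Cardinal Interpolation

variable {L : Language.{u, v}} {T : L.Theory} {Ω : Type (max u v)}

/-- The true statements on part of a family. -/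
def diagram (L : Language.{u, v}) (Q : Set Ω) {N : Type (max u v)} [L.Structure N] (x : Ω → N) :
    Set (Σ k, L.Formula (Fin k) × (Fin k → Ω)) :=
  {e | (∀ j, e.2.2 j ∈ Q) ∧ e.2.1.Realize (x ∘ e.2.2)}

theorem elemEquiv_of_diagram {Q : Set Ω} {N N' : Type (max u v)} [L.Structure N] [L.Structure N']
    {x : Ω → N} {y : Ω → N'} (h : ∀ e ∈ diagram L Q x, e.2.1.Realize (y ∘ e.2.2)) :
    ElemEquiv L (fun q : Q => x q) fun q : Q => y q := by
  intro k φ a
  refine ⟨fun hφ => h ⟨k, φ, fun j => a j⟩ ⟨fun j => (a j).2, hφ⟩, fun hφ => ?_⟩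
  by_contra hn
  exact h ⟨k, φ.not, fun j => a j⟩ ⟨fun j => (a j).2, hn⟩ hφ

/-- Realisation of statements about a family. -/
theorem exists_realize_statements (T : L.Theory) (S : Set (Σ k, L.Formula (Fin k) × (Fin k → Ω)))
    (h : ∀ s : Finset (Σ k, L.Formula (Fin k) × (Fin k → Ω)), (s : Set _) ⊆ S →
      ∃ (N : Theory.ModelType.{u, v, max u v} T) (x : Ω → N),
        ∀ e ∈ s, e.2.1.Realize (x ∘ e.2.2)) :
    ∃ (N : Theory.ModelType.{u, v, max u v} T) (x : Ω → N),
      ∀ e ∈ S, e.2.1.Realize (x ∘ e.2.2) := by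
  classical
  obtain ⟨N, x, hx⟩ := exists_realize T ((fun e => e.2.1.relabel e.2.2) '' S) fun s hs => by
    choose e he hee using fun φ : s => hs φ.2
    obtain ⟨N, x, hx⟩ := h (Finset.univ.image e) fun a ha => by
      obtain ⟨φ, -, rfl⟩ := Finset.mem_image.1 ha
      exact he φ
    refine ⟨N, x, fun φ hφ => ?_⟩
    have e1 : (e ⟨φ, hφ⟩).2.1.relabel (e ⟨φ, hφ⟩).2.2 = φ := hee ⟨φ, hφ⟩
    rw [← e1, Formula.realize_relabel]
    exact hx _ (Finset.mem_image_of_mem _ (Finset.mem_univ _))
  exact ⟨N, x, fun e he => Formula.realize_relabel.1 (hx _ ⟨e, he, rfl⟩)⟩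

/-- The index set of the steps. -/
abbrev StepIndex : Type w := (aleph.{w} 1).ord.ToType

theorem exists_gt_of_countable {C : Set StepIndex.{w}} (hC : C.Countable) :
    ∃ i, ∀ c ∈ C, c < i := by
  by_contra! h
  have hsub : (Set.univ : Set StepIndex.{w}) ⊆ ⋃ c ∈ C, Set.Iic c := fun i _ =>
    let ⟨c, hc, hic⟩ := h i
    Set.mem_iUnion₂.2 ⟨c, hc, hic⟩
  have hcount : (⋃ c ∈ C, Set.Iic c).Countable := hC.biUnion fun c _ => by
    have hc : #(Set.Iio c) < ℵ_ 1 :=
      (mk_Iio_lt c (by rw [mk_ord_toType, Ordinal.type_toType])).trans_eq (mk_ord_toType _)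
    rw [← Set.Iio_insert]
    exact Set.Countable.insert _ (le_aleph0_iff_set_countable.1
      (not_lt.1 fun hlt => hc.not_ge (aleph_one_le_iff.2 hlt)))
  have h1 : #(StepIndex.{w}) ≤ ℵ₀ := by
    rw [← mk_univ]
    exact le_aleph0_iff_set_countable.2 (hcount.mono hsub)
  rw [mk_ord_toType] at h1
  exact (aleph_one_le_iff.1 le_rfl).not_ge h1

/-- The indices: a base and the steps. -/
abbrev SatIndex (K : Type w) : Type w :=
  K ⊕ (StepIndex.{w} × K)

/-- The indices before a step. -/
def beforeStep {K : Type w} (i : StepIndex.{w}) : Set (SatIndex K) :=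
  {ω | ∀ j k, ω = Sum.inr (j, k) → j < i}

/-- The indices up to a step. -/
def uptoStep {K : Type w} (i : StepIndex.{w}) : Set (SatIndex K) :=
  {ω | ∀ j k, ω = Sum.inr (j, k) → j ≤ i}

/-- The base points are distinct. -/
def distinctStatements (L : Language.{u, v}) (K : Type (max u v)) :
    Set (Σ k, L.Formula (Fin k) × (Fin k → SatIndex K)) :=
  {e | ∃ k l : K, k ≠ l ∧
    e = ⟨2, (Term.equal (.var 0) (.var 1)).not, ![Sum.inl k, Sum.inl l]⟩}

/-- A good step: it realises all types over what came before. -/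
def IsGoodStep (T : L.Theory) {K : Type (max u v)} (i : StepIndex.{max u v})
    (Γ : Set (Σ k, L.Formula (Fin k) × (Fin k → SatIndex K))) : Prop :=
  ∃ (N : Theory.ModelType.{u, v, max u v} T) (x : SatIndex K → N),
    Γ = diagram L (uptoStep i) x ∧ Function.Injective (fun k => x (Sum.inl k)) ∧
    ∀ p, IsType (L := L) (fun q : beforeStep (K := K) i => x q) p →
      ∃ k, Realizes (L := L) (fun q : beforeStep (K := K) i => x q) p (x (Sum.inr (i, k)))

theorem realize_distinct_iff {K : Type (max u v)} {N : Type (max u v)} [L.Structure N]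
    (x : SatIndex K → N) :
    (∀ e ∈ distinctStatements L K, e.2.1.Realize (x ∘ e.2.2)) ↔
      Function.Injective fun k => x (Sum.inl k) := by
  constructor
  · intro hx k l hkl
    by_contra hne
    have := hx _ ⟨k, l, hne, rfl⟩
    simp [Formula.realize_not, Formula.realize_equal] at this
    exact this hkl
  · rintro hx e ⟨k, l, hkl, rfl⟩
    simp only [Formula.realize_not, Formula.realize_equal, Term.realize_var, Function.comp_apply]
    exact fun h => hkl (hx (by simpa using h))

/-- Good steps in a chain are realised together. -/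
theorem exists_realize_steps (M₀ : Theory.ModelType.{u, v, max u v} T) [Infinite M₀]
    {K : Type (max u v)} (I : Set StepIndex.{max u v})
    (Γ : StepIndex.{max u v} → Set (Σ k, L.Formula (Fin k) × (Fin k → SatIndex K)))
    (hG : ∀ j ∈ I, IsGoodStep T j (Γ j)) (hmono : ∀ j ∈ I, ∀ j' ∈ I, j ≤ j' → Γ j ⊆ Γ j') :
    ∃ (N : Theory.ModelType.{u, v, max u v} T) (x : SatIndex K → N),
      (∀ j ∈ I, ∀ e ∈ Γ j, e.2.1.Realize (x ∘ e.2.2)) ∧
        Function.Injective fun k => x (Sum.inl k) := by
  classical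
  obtain ⟨N, x, hx⟩ := exists_realize_statements T (distinctStatements L K ∪ ⋃ j ∈ I, Γ j)
    fun s hs => by
    let J := s.filter (· ∈ ⋃ j ∈ I, Γ j)
    have hJ : ∀ e : J, ∃ j ∈ I, e.1 ∈ Γ j := fun e => by
      simpa using (Finset.mem_filter.1 e.2).2
    choose j hjI hje using hJ
    rcases (Finset.univ.image j).eq_empty_or_nonempty with hempty | hne
    · let F : Finset K := s.biUnion fun e => (Finset.univ.image e.2.2).toLeft
      let z : F ↪ M₀ := (F.equivFin.toEmbedding.trans Fin.valEmbedding).trans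
        (Infinite.natEmbedding M₀)
      refine ⟨M₀, Sum.elim (fun k => if hk : k ∈ F then z ⟨k, hk⟩ else Classical.arbitrary M₀)
        (fun _ => Classical.arbitrary M₀), fun e he => ?_⟩
      have hJe : e ∉ J := fun h => by
        have := Finset.mem_image_of_mem j (Finset.mem_univ (⟨e, h⟩ : J))
        rw [hempty] at this
        exact absurd this (Finset.notMem_empty _)
      rcases hs he with ⟨k, l, hkl, rfl⟩ | hu
      · have hk : k ∈ F := Finset.mem_biUnion.2 ⟨_, he, Finset.mem_toLeft.2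
          (Finset.mem_image.2 ⟨(0 : Fin 2), Finset.mem_univ _, rfl⟩)⟩
        have hl : l ∈ F := Finset.mem_biUnion.2 ⟨_, he, Finset.mem_toLeft.2
          (Finset.mem_image.2 ⟨(1 : Fin 2), Finset.mem_univ _, rfl⟩)⟩
        simp [Formula.realize_not, Formula.realize_equal, hk, hl, hkl]
      · exact absurd (Finset.mem_filter.2 ⟨he, hu⟩) hJe
    · obtain ⟨e₀, -, hmax⟩ := Finset.mem_image.1 ((Finset.univ.image j).max'_mem hne)
      obtain ⟨N, x, hΓ, hxinj, -⟩ := hG (j e₀) (hjI e₀)
      refine ⟨N, x, fun e he => ?_⟩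
      rcases hs he with hd | hu
      · exact (realize_distinct_iff (L := L) x).2 hxinj e hd
      · have hm : e ∈ J := Finset.mem_filter.2 ⟨he, hu⟩
        have hle : j ⟨e, hm⟩ ≤ j e₀ := by
          rw [hmax]
          exact Finset.le_max' _ _ (Finset.mem_image_of_mem j (Finset.mem_univ _))
        have := hmono _ (hjI _) _ (hjI _) hle (hje ⟨e, hm⟩)
        rw [hΓ] at this
        exact this.2
  exact ⟨N, x, fun j hj e he => hx e (.inr (Set.mem_iUnion₂.2 ⟨j, hj, he⟩)),
    (realize_distinct_iff (L := L) x).1 fun e he => hx e (.inl he)⟩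

/-- One more step. -/
theorem exists_goodStep [Countable L.Symbols] (hst : IsOmegaStable T)
    (M₀ : Theory.ModelType.{u, v, max u v} T) [Infinite M₀] {K : Type (max u v)} (hK : ℵ₀ < #K)
    (i : StepIndex.{max u v})
    (Γ : StepIndex.{max u v} → Set (Σ k, L.Formula (Fin k) × (Fin k → SatIndex K)))
    (hG : ∀ j < i, IsGoodStep T j (Γ j)) (hmono : ∀ j < i, ∀ j' < i, j ≤ j' → Γ j ⊆ Γ j') :
    ∃ Γ', IsGoodStep T i Γ' ∧ ∀ j < i, Γ j ⊆ Γ' := by
  classical
  obtain ⟨N, x, hx, hxinj⟩ := exists_realize_steps M₀ (Set.Iio i) Γ hG hmono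
  let f : beforeStep (K := K) i → N := fun q => x q
  have : Nonempty (typesOver L f) := ⟨⟨_, isType_typeAt f (Classical.arbitrary N)⟩⟩
  have : Nonempty K := mk_ne_zero_iff.1 (aleph0_pos.trans hK).ne'
  have hLt : #(beforeStep (K := K) i) ≤ #K := by
    refine (mk_subtype_le _).trans ?_
    simp only [mk_sum, mk_prod, lift_id, mk_ord_toType]
    exact (add_le_add le_rfl (mul_le_mul' (aleph_one_le_iff.2 hK) le_rfl)).trans
      (by rw [mul_eq_self hK.le, add_eq_self hK.le])
  obtain ⟨g⟩ : Nonempty (typesOver L f ↪ K) :=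
    Cardinal.lift_mk_le'.1 (by simpa using hst.mk_typesOver_le N f hK.le hLt)
  let P : K → typesOver L f := Function.invFun g
  have hP : Function.Surjective P := Function.invFun_surjective g.injective
  let v' : K → PFormula L (beforeStep (K := K) i) → Σ k, L.Formula (Fin k) × (Fin k → SatIndex K) :=
    fun k φ => ⟨(signed (P k).1 φ).1 + 1, (signed (P k).1 φ).2.1,
      Fin.snoc (fun j => ((signed (P k).1 φ).2.2 j : SatIndex K)) (Sum.inr (i, k))⟩
  have hv : ∀ {N' : Theory.ModelType.{u, v, max u v} T} (z : SatIndex K → N') (k : K)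
      (φ : PFormula L (beforeStep (K := K) i)), (v' k φ).2.1.Realize (z ∘ (v' k φ).2.2) ↔
        (φ ∈ (P k).1 ↔ Holds (fun q : beforeStep (K := K) i => z q) φ (z (Sum.inr (i, k)))) := by
    intro N' z k φ
    rw [← holds_signed]
    simp only [v', Holds, Fin.comp_snoc]
    rfl
  obtain ⟨N', y, hy⟩ := exists_realize_statements T
    (diagram L (beforeStep i) x ∪ distinctStatements L K ∪ {e | ∃ k φ, v' k φ = e}) fun s hs => by
    have hwit : ∀ k, ∃ a, ∀ φ, v' k φ ∈ s → (φ ∈ (P k).1 ↔ Holds f φ a) := by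
      intro k
      choose φ hφ using fun e : {e // ∃ φ, v' k φ = e} => e.2
      obtain ⟨a, ha⟩ :=
        (P k).2.exists_holds_signedConj ((s.subtype fun e => ∃ φ, v' k φ = e).image φ)
      refine ⟨a, fun ψ hψ => ?_⟩
      have hex : ∃ φ, v' k φ = v' k ψ := ⟨ψ, rfl⟩
      have h1 := (holds_signedConj _ _ f a).1 ha (φ ⟨v' k ψ, hex⟩)
        (Finset.mem_image_of_mem _ (Finset.mem_subtype.2 hψ))
      -- the two formulas say the same
      have key : ∀ b, Holds f (signed (P k).1 (φ ⟨v' k ψ, hex⟩)) b ↔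
          Holds f (signed (P k).1 ψ) b := by
        intro b
        let z : SatIndex K → N := Function.update x (Sum.inr (i, k)) b
        have hz : (fun q : beforeStep (K := K) i => z q) = f := funext fun q =>
          Function.update_of_ne (fun e => (lt_irrefl i) (q.2 i k e)) _ _
        have e1 := hv z k (φ ⟨v' k ψ, hex⟩)
        rw [hφ ⟨v' k ψ, hex⟩, hv z k ψ, hz] at e1
        rw [holds_signed, holds_signed]
        simpa [z] using e1.symm
      rw [← holds_signed, ← key, holds_signed]
      exact h1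
    choose a ha using hwit
    refine ⟨N, fun ω => if h : ∃ k, ω = Sum.inr (i, k) then a h.choose else x ω, fun e he => ?_⟩
    have hz : ∀ ω ∈ beforeStep (K := K) i,
        (if h : ∃ k, ω = Sum.inr (i, k) then a h.choose else x ω) = x ω := fun ω hω =>
      dif_neg fun ⟨k, hk⟩ => (lt_irrefl i) (hω i k hk)
    rcases hs he with (⟨hQ, hr⟩ | ⟨k, l, hkl, rfl⟩) | ⟨k, φ, rfl⟩
    · convert hr using 1
      exact funext fun j => hz _ (hQ j)
    · have := (realize_distinct_iff (L := L) x).2 hxinj _ ⟨k, l, hkl, rfl⟩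
      convert this using 1
      funext j
      fin_cases j <;> simp
    · rw [hv]
      have hk : ∃ k', (Sum.inr (i, k) : SatIndex K) = Sum.inr (i, k') := ⟨k, rfl⟩
      rw [dif_pos hk, show (fun q : beforeStep (K := K) i => if h : ∃ k', (q : SatIndex K) =
        Sum.inr (i, k') then a h.choose else x q) = f from funext fun q => hz _ q.2]
      have hk' : hk.choose = k := (Prod.mk.inj (Sum.inr_injective hk.choose_spec)).2.symm
      rw [hk']
      exact ha k φ he
  have hE : ElemEquiv L f fun q : beforeStep (K := K) i => y q :=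
    elemEquiv_of_diagram fun e he => hy e (.inl (.inl he))
  refine ⟨diagram L (uptoStep i) y, ⟨N', y, rfl,
    (realize_distinct_iff (L := L) y).1 fun e he => hy e (.inl (.inr he)), fun p hp => ?_⟩,
    fun j hj e he => ?_⟩
  · obtain ⟨k, hk⟩ := hP ⟨p, hE.isType_iff.2 hp⟩
    refine ⟨k, fun φ => ?_⟩
    have := (hv y k φ).1 (hy _ (.inr ⟨k, φ, rfl⟩))
    rwa [hk] at this
  · have hmem : ∀ l, e.2.2 l ∈ beforeStep (K := K) i := by
      obtain ⟨Nj, xj, hΓj, -⟩ := hG j hj
      rw [hΓj] at he
      exact fun l j' k h => (he.1 l j' k h).trans_lt hj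
    refine ⟨fun l j' k h => (hmem l j' k h).le, hy e (.inl (.inl ⟨hmem, hx j hj e he⟩))⟩

/-- **Models realising all types over countable sets exist.** -/
theorem exists_countablySaturated [Countable L.Symbols] (hst : IsOmegaStable T)
    (M₀ : Theory.ModelType.{u, v, max u v} T) [Infinite M₀] {κ : Cardinal.{max u v}}
    (hκ : ℵ₀ < κ) :
    ∃ E : Theory.ModelType.{u, v, max u v} T, #E = κ ∧ IsSaturated L (ℵ_ 1) E := by
  classical
  let K := κ.out
  have hK : #K = κ := mk_out κ
  let ext : StepIndex.{max u v} → (StepIndex.{max u v} →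
      Set (Σ k, L.Formula (Fin k) × (Fin k → SatIndex K))) →
      Set (Σ k, L.Formula (Fin k) × (Fin k → SatIndex K)) := fun i Γ =>
    if h : ∃ Γ', IsGoodStep T i Γ' ∧ ∀ j < i, Γ j ⊆ Γ' then h.choose else ∅
  let Γ : StepIndex.{max u v} → Set (Σ k, L.Formula (Fin k) × (Fin k → SatIndex K)) :=
    wellFounded_lt.fix fun i rec => ext i fun j => if h : j < i then rec j h else ∅
  have hΓ : ∀ i, Γ i = ext i fun j => if j < i then Γ j else ∅ := fun i => by
    simp only [Γ]
    rw [WellFounded.fix_eq]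
    rfl
  have hgood : ∀ i, IsGoodStep T i (Γ i) ∧ ∀ j < i, Γ j ⊆ Γ i := fun i => by
    induction i using WellFoundedLT.induction with
    | ind i ih =>
      have hex := exists_goodStep hst M₀ (by rw [hK]; exact hκ) i
        (fun j => if j < i then Γ j else ∅) (fun j hj => by rw [if_pos hj]; exact (ih j hj).1)
        fun j hj j' hj' hle => by
          rw [if_pos hj, if_pos hj']
          rcases hle.eq_or_lt with rfl | hlt
          exacts [subset_rfl, (ih j' hj').2 j hlt]
      rw [hΓ i]
      simp only [ext, dif_pos hex]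
      exact ⟨hex.choose_spec.1, fun j hj => by
        have := hex.choose_spec.2 j hj
        rwa [if_pos hj] at this⟩
  obtain ⟨N, x, hx, hxinj⟩ := exists_realize_steps M₀ Set.univ Γ (fun j _ => (hgood j).1)
    fun j _ j' _ hle => by
      rcases hle.eq_or_lt with rfl | hlt
      exacts [subset_rfl, (hgood j').2 j hlt]
  have hbound : ∀ (s : Set (SatIndex K)), s.Countable → ∃ i, s ⊆ beforeStep i := by
    intro s hs
    obtain ⟨i, hi⟩ := exists_gt_of_countable
      ((hs.image (Sum.elim (fun _ => none) fun c => some c.1)).preimage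
        (Option.some_injective StepIndex.{max u v}))
    exact ⟨i, fun ω hω j k h => hi j ⟨ω, hω, by subst h; rfl⟩⟩
  have hreal : ∀ i p, IsType (L := L) (fun q : beforeStep (K := K) i => x q) p →
      ∃ k, Realizes (L := L) (fun q : beforeStep (K := K) i => x q) p (x (Sum.inr (i, k))) := by
    intro i p hp
    obtain ⟨Ni, y, hΓi, -, hy⟩ := (hgood i).1
    have hE : ElemEquiv L (fun q : uptoStep (K := K) i => y q) fun q : uptoStep (K := K) i => x q :=
      elemEquiv_of_diagram fun e he => hx i trivial e (by rw [hΓi]; exact he)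
    let inc : beforeStep (K := K) i → uptoStep (K := K) i := fun q =>
      ⟨q.1, fun j k h => (q.2 j k h).le⟩
    obtain ⟨k, hk⟩ := hy p ((hE.comp inc).isType_iff.2 hp)
    refine ⟨k, fun φ => (hk φ).trans ?_⟩
    have hw : (Sum.inr (i, k) : SatIndex K) ∈ uptoStep i := fun j k' h => by
      obtain ⟨rfl, -⟩ := Prod.mk.inj (Sum.inr_injective h)
      rfl
    have := hE _ φ.2.1 (Fin.snoc (inc ∘ φ.2.2) ⟨_, hw⟩)
    rw [Fin.comp_snoc, Fin.comp_snoc] at this
    exact this
  have : Nonempty (SatIndex K) :=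
    (mk_ne_zero_iff.1 (by rw [hK]; exact (aleph0_pos.trans hκ).ne') : Nonempty K).map Sum.inl
  obtain ⟨E, y, hys, hyx⟩ := exists_submodel x fun φ ⟨a, ha⟩ => by
    obtain ⟨i, hi⟩ := hbound (Set.range φ.2.2) (Set.countable_range _)
    let φ' : PFormula L (beforeStep (K := K) i) :=
      ⟨φ.1, φ.2.1, fun j => ⟨φ.2.2 j, hi ⟨j, rfl⟩⟩⟩
    obtain ⟨k, hk⟩ := hreal i _ (isType_typeAt _ a)
    exact ⟨_, (hk φ').1 ha⟩
  refine ⟨E, le_antisymm ((mk_le_of_surjective hys).trans ?_) ?_, fun B hB p hp => ?_⟩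
  · simp only [mk_sum, mk_prod, lift_id, mk_ord_toType, hK]
    exact (add_le_add le_rfl (mul_le_mul' (aleph_one_le_iff.2 hκ) le_rfl)).trans
      (by rw [mul_eq_self hκ.le, add_eq_self hκ.le])
  · rw [← hK]
    exact mk_le_of_injective (f := fun k => y (Sum.inl k)) fun k l hkl =>
      hxinj ((hyx.apply_eq_iff _ _).1 hkl)
  · have : Countable B := mk_le_aleph0_iff.1 (not_lt.1 fun h => hB.not_ge (aleph_one_le_iff.2 h))
    choose ω hω using fun b : B => hys b
    obtain ⟨i, hi⟩ := hbound (Set.range ω) (Set.countable_range _)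
    let inc : B → beforeStep (K := K) i := fun b => ⟨ω b, hi ⟨b, rfl⟩⟩
    obtain ⟨q, hq, hpq⟩ := exists_type_superset (fun c : beforeStep (K := K) i => y c.1)
      (mapParams inc '' p) fun t ht => by
        choose ψ hψ hψe using fun φ : t => ht φ.2
        obtain ⟨a, ha⟩ := hp (Finset.univ.image ψ)
        refine ⟨a, fun φ hφ => ?_⟩
        have e1 : mapParams inc (ψ ⟨φ, hφ⟩) = φ := hψe _
        rw [← e1, holds_mapParams]
        exact (holds_congr _ (fun j => (hω _)) a).2
          ((ha _ (Finset.mem_image_of_mem _ (Finset.mem_univ _))).1 (hψ _))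
    obtain ⟨k, hk⟩ := hreal i q ((hyx.comp Subtype.val).isType_iff.1 hq)
    refine ⟨y (Sum.inr (i, k)), fun φ => ?_⟩
    have h1 : mapParams inc φ ∈ q ↔ Holds (Subtype.val : B → E) φ (y (Sum.inr (i, k))) := by
      rw [hk, holds_mapParams, ← holds_congr (f := y ∘ ω) φ (fun j => hω _)]
      have := hyx _ φ.2.1 (Fin.snoc (ω ∘ φ.2.2) (Sum.inr (i, k)))
      rw [Fin.comp_snoc, Fin.comp_snoc] at this
      exact this.symm
    refine ⟨fun hφ => h1.1 (hpq ⟨φ, hφ, rfl⟩), fun hφ => by_contra fun hn => ?_⟩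
    exact (hq.negation_mem_iff _).1 (hpq ⟨negation φ, (hp.negation_mem_iff φ).2 hn, rfl⟩) (h1.2 hφ)

end FA.Morley
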