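import Fermat.Agent.Morley.Saturation
import Fermat.Agent.Morley.Ehrenfeucht

/-!
# Categoricity gives stability

If there is only one model of some uncountable size, it looks like a model of Ehrenfeucht and
Mostowski, so only countably many types over each countable set are ever realised.
-/

set_option autoImplicit false

universe u v w

namespace FA.Morley

open FirstOrder Language Cardinal

variable {L : Language.{u, v}} {T : L.Theory}

/-- All models of a complete theory with an infinite model are infinite. -/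
theorem infinite_of_isComplete (hT : T.IsComplete) (M₀ M : Theory.ModelType.{u, v, max u v} T)
    [Infinite M₀] : Infinite M :=
  L.model_infiniteTheory_iff.1 ⟨fun σ hσ => (hT.realize_sentence_iff σ M).2
    ((hT.realize_sentence_iff σ M₀).1
      ((L.model_infiniteTheory_iff.2 inferInstance : M₀ ⊨ L.infiniteTheory).realize_of_mem σ hσ))⟩

/-- In a countable language the language is no bigger than `ℵ₀`. -/
theorem card_language_le [Countable L.Symbols] : L.card ≤ ℵ₀ :=
  mk_le_aleph0 (α := L.Symbols)

/-- Inside an infinite model: a submodel of given size around a family. -/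
theorem exists_model_around [Countable L.Symbols] (N : Theory.ModelType.{u, v, max u v} T)
    {Ω : Type (max u v)} (x : Ω → N) {κ : Cardinal.{max u v}} (hκ : ℵ₀ ≤ κ) (hΩ : #Ω ≤ κ)
    (hN : κ ≤ #N) :
    ∃ (E : Theory.ModelType.{u, v, max u v} T) (y : Ω → E), #E = κ ∧ ElemEquiv L y x := by
  obtain ⟨S, hxS, hS⟩ := exists_elementarySubstructure_card_eq L (Set.range x) κ hκ
    (by simpa using mk_range_le.trans hΩ)
    (by simpa using card_language_le.trans hκ) (by simpa using hN)
  have hcard : #S = κ := by simpa using hS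
  have : Nonempty S := mk_ne_zero_iff.1 (by rw [hcard]; exact (aleph0_pos.trans_le hκ).ne')
  exact ⟨Theory.ModelType.of T S, fun ω => ⟨x ω, hxS ⟨ω, rfl⟩⟩, hcard,
    elemEquiv_map S.subtype _⟩

open Classical in
/-- **Categoricity in an uncountable size gives stability.** -/
theorem isOmegaStable_of_categorical_of_isComplete [Countable L.Symbols] (hT : T.IsComplete)
    (M₀ : Theory.ModelType.{u, v, max u v} T) [Infinite M₀] {κ : Cardinal.{max u v}}
    (hκ : ℵ₀ < κ) (h : κ.Categorical T) : IsOmegaStable T := by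
  intro M B hB
  by_contra hunc
  have hlt : ℵ_ 1 ≤ #(typesOver L (Subtype.val : B → M)) :=
    aleph_one_le_iff.2 (not_le.1 fun hle => hunc (le_aleph0_iff_set_countable.1 hle))
  obtain ⟨S, hS⟩ := le_mk_iff_exists_set.1 hlt
  have := infinite_of_isComplete hT M₀ M
  let Ω : Type (max u v) := κ.out ⊕ (B ⊕ S)
  let inB : B → Ω := fun b => Sum.inr (Sum.inl b)
  let inS : S → Ω := fun p => Sum.inr (Sum.inr p)
  let W : Set (Σ k, L.Formula (Fin k) × (Fin k → Ω)) :=
    {e | ∃ k l : κ.out, k ≠ l ∧
      e = ⟨2, (Term.equal (.var 0) (.var 1)).not, ![Sum.inl k, Sum.inl l]⟩}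
  obtain ⟨N, x, hx⟩ := exists_realize_statements T (W ∪
    diagram L (Set.range inB) (Sum.elim (fun _ => Classical.arbitrary M)
      (Sum.elim Subtype.val fun _ => Classical.arbitrary M)) ∪
    {e | ∃ (p : S) (φ : PFormula L B), statementAt inB (inS p) (signed p.1.1 φ) = e}) fun s hs => by
    let s3 := s.filter fun e =>
      ∃ (p : S) (φ : PFormula L B), statementAt inB (inS p) (signed p.1.1 φ) = e
    have h3 : ∀ e : s3, ∃ (p : S) (φ : PFormula L B),
        statementAt inB (inS p) (signed p.1.1 φ) = e.1 := fun e => (Finset.mem_filter.1 e.2).2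
    choose q φ hqφ using h3
    have hwit : ∀ p : S, ∃ a : M, ∀ e : s3, q e = p →
        Holds (Subtype.val : B → M) (signed p.1.1 (φ e)) a := fun p => by
      obtain ⟨a, ha⟩ := p.1.2 ((Finset.univ.filter fun e => q e = p).image φ)
      exact ⟨a, fun e he => (holds_signed _ _ _ a).2
        (ha _ (Finset.mem_image_of_mem _ (Finset.mem_filter.2 ⟨Finset.mem_univ _, he⟩)))⟩
    choose a ha using hwit
    let F : Finset κ.out := s.biUnion fun e => (Finset.univ.image e.2.2).toLeft
    let z : F ↪ M := (F.equivFin.toEmbedding.trans Fin.valEmbedding).trans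
      (Infinite.natEmbedding M)
    refine ⟨M, Sum.elim (fun k => if hk : k ∈ F then z ⟨k, hk⟩ else Classical.arbitrary M)
      (Sum.elim Subtype.val a), fun e he => ?_⟩
    rcases hs he with (⟨k, l, hkl, rfl⟩ | ⟨hQ, hr⟩) | h
    · have hk : k ∈ F := Finset.mem_biUnion.2 ⟨_, he, Finset.mem_toLeft.2
        (Finset.mem_image.2 ⟨(0 : Fin 2), Finset.mem_univ _, rfl⟩)⟩
      have hl : l ∈ F := Finset.mem_biUnion.2 ⟨_, he, Finset.mem_toLeft.2
        (Finset.mem_image.2 ⟨(1 : Fin 2), Finset.mem_univ _, rfl⟩)⟩
      simp [Formula.realize_not, Formula.realize_equal, hk, hl, hkl]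
    · convert hr using 1
      funext j
      obtain ⟨b, hb⟩ := hQ j
      simp [← hb, inB]
    · have hm : e ∈ s3 := Finset.mem_filter.2 ⟨he, h⟩
      have e1 : statementAt inB (inS (q ⟨e, hm⟩)) (signed (q ⟨e, hm⟩).1.1 (φ ⟨e, hm⟩)) = e :=
        hqφ ⟨e, hm⟩
      rw [← e1, realize_statementAt]
      exact ha _ ⟨e, hm⟩ rfl
  have hinj : Function.Injective fun k : κ.out => x (Sum.inl k) := fun k l hkl => by
    by_contra hne
    have := hx _ (.inl (.inl ⟨k, l, hne, rfl⟩))
    simp [Formula.realize_not, Formula.realize_equal] at this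
    exact this hkl
  have hΩ : #Ω ≤ κ := by
    simp only [Ω, mk_sum, lift_id, mk_out]
    refine (add_le_add le_rfl (add_le_add (hB.le_aleph0.trans hκ.le)
      (hS.le.trans (aleph_one_le_iff.2 hκ)))).trans ?_
    rw [add_eq_self hκ.le, add_eq_self hκ.le]
  obtain ⟨E, y, hE, hyx⟩ := exists_model_around N x hκ.le hΩ
    (le_of_eq_of_le (mk_out κ).symm (mk_le_of_injective hinj))
  obtain ⟨E₁, hE₁, hfew⟩ := exists_model_few_types M₀ hκ.le
  obtain ⟨e⟩ := h E E₁ hE hE₁
  let g : B → E₁ := fun b => e (y (inB b))
  let c : S → E₁ := fun p => e (y (inS p))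
  have hg : ∀ (p : S) (φ : PFormula L B), φ ∈ p.1.1 ↔ Holds g φ (c p) := fun p φ => by
    have h1 := hx _ (.inr ⟨p, φ, rfl⟩)
    rw [realize_statementAt, holds_signed, ← hyx.holds_iff φ inB (inS p),
      (elemEquiv_map e.toElementaryEmbedding y).holds_iff φ inB (inS p)] at h1
    exact h1
  have : Countable B := hB.to_subtype
  have hcount := (hfew (Set.range g) (Set.countable_range g)).to_subtype
  have hSc : Countable S := by
    refine Function.Injective.countable (f := fun p : S =>
      (⟨_, c p, rfl⟩ :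
        ({t | ∃ a : E₁, typeAt L (Subtype.val : Set.range g → E₁) a = t} : Set _)))
      fun p p' hpp' => ?_
    have hpp' := congrArg Subtype.val hpp'
    refine Subtype.ext (Subtype.ext (Set.ext fun φ => ?_))
    rw [hg, hg]
    exact Set.ext_iff.1 hpp' (mapParams (Set.rangeFactorization g) φ)
  exact (aleph_one_le_iff.1 le_rfl).not_ge (hS.symm.le.trans mk_le_aleph0)

end FA.Morley
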