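import Fermat.Agent.Morley.Stability
import Fermat.Agent.Morley.Indiscernibles
import Fermat.Agent.Morley.Atomic

/-!
# Categoricity gives saturation

An omitted type over a smaller set would, after stretching an indiscernible sequence to the
categorical size and taking an atomic model over it, be omitted over a countable set in a model
that realises all such types.
-/

set_option autoImplicit false

universe u v w

namespace FA.Morley

open FirstOrder Language Cardinal

variable {L : Language.{u, v}} {T : L.Theory}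

/-- A countable set closed under a choice of parameters. -/
theorem exists_countable_closed [Countable L.Symbols] {A : Type w}
    (pick : PFormula L (A ⊕ ℕ) → PFormula L A) :
    ∃ A₀ : Set A, A₀.Countable ∧ ∀ θ : PFormula L (A ⊕ ℕ),
      (∀ l a, θ.2.2 l = Sum.inl a → a ∈ A₀) → ∀ l, (pick θ).2.2 l ∈ A₀ := by
  classical
  let next : Set A → Set A := fun X => X ∪ ⋃ θ : PFormula L (X ⊕ ℕ),
    Set.range (pick (mapParams (Sum.map Subtype.val id) θ)).2.2
  let C : ℕ → Set A := fun n => Nat.rec (motive := fun _ => Set A) ∅ (fun _ => next) n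
  have hcount : ∀ n, (C n).Countable := fun n => by
    induction n with
    | zero => exact Set.countable_empty
    | succ n ih =>
      have := ih.to_subtype
      exact ih.union (Set.countable_iUnion fun θ => Set.countable_range _)
  have hmono : Monotone C := monotone_nat_of_le_succ fun n => Set.subset_union_left
  refine ⟨⋃ n, C n, Set.countable_iUnion hcount, fun θ hθ l => ?_⟩
  have hn : ∀ m, ∃ n, ∀ a, θ.2.2 m = Sum.inl a → a ∈ C n := fun m => by
    rcases hm : θ.2.2 m with a | j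
    · obtain ⟨n, hn⟩ := Set.mem_iUnion.1 (hθ m a hm)
      exact ⟨n, fun a' h => Sum.inl_injective h ▸ hn⟩
    · exact ⟨0, fun a' h => (Sum.inr_ne_inl h).elim⟩
  choose n hn using hn
  let N := Finset.univ.sup n
  have hc : ∀ m, ∃ c : C N ⊕ ℕ, Sum.map Subtype.val id c = θ.2.2 m := fun m => by
    rcases hm : θ.2.2 m with a | j
    · exact ⟨.inl ⟨a, hmono (Finset.le_sup (Finset.mem_univ m)) (hn m a hm)⟩, rfl⟩
    · exact ⟨.inr j, rfl⟩
  choose c hc using hc
  have e : mapParams (Sum.map Subtype.val id) (⟨θ.1, θ.2.1, c⟩ : PFormula L (C N ⊕ ℕ)) = θ := by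
    have h : Sum.map Subtype.val id ∘ c = θ.2.2 := funext hc
    simp only [mapParams, h]
  refine Set.mem_iUnion.2 ⟨N + 1, Or.inr (Set.mem_iUnion.2 ⟨⟨θ.1, θ.2.1, c⟩, ?_⟩)⟩
  rw [e]
  exact ⟨l, rfl⟩

/-- Some numbering of a finite set respects the order. -/
theorem exists_strictMonoOn {J : Type w} [LinearOrder J] (F : Finset J) :
    ∃ σ : J → ℕ, StrictMonoOn σ F :=
  ⟨fun l => (F.filter (· < l)).card, fun l hl _ _ hlm => Finset.card_lt_card
    ((Finset.ssubset_iff_of_subset (Finset.monotone_filter_right F fun _ _ hb => hb.trans hlm)).2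
      ⟨l, Finset.mem_filter.2 ⟨hl, hlm⟩, fun h => lt_irrefl l (Finset.mem_filter.1 h).2⟩)⟩

/-- **Stretching an indiscernible sequence** to any ordered set. -/
theorem exists_stretch {A : Type (max u v)} (M : Theory.ModelType.{u, v, max u v} T) (f : A → M)
    (b : ℕ → M)
    (hb : ∀ (n : ℕ) (i j : Fin n → ℕ), StrictMono i → StrictMono j →
      ElemEquiv L (Sum.elim f (b ∘ i)) (Sum.elim f (b ∘ j)))
    (J : Type (max u v)) [LinearOrder J] :
    ∃ (N : Theory.ModelType.{u, v, max u v} T) (x : A ⊕ J → N),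
      ∀ (F : Finset J) (σ : J → ℕ), StrictMonoOn σ F →
        ElemEquiv L (Sum.elim f (b ∘ σ) ∘ Sum.map id (Subtype.val : F → J))
          (x ∘ Sum.map id (Subtype.val : F → J)) := by
  classical
  have hindep : ∀ (F : Finset J) (σ τ : J → ℕ), StrictMonoOn σ F → StrictMonoOn τ F →
      ElemEquiv L (Sum.elim f (b ∘ σ) ∘ Sum.map id (Subtype.val : F → J))
        (Sum.elim f (b ∘ τ) ∘ Sum.map id (Subtype.val : F → J)) := by
    intro F σ τ hσ hτ
    let e := F.orderIsoOfFin rfl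
    have hi : ∀ {σ : J → ℕ}, StrictMonoOn σ F → StrictMono fun l => σ (e l) :=
      fun hσ l m hlm => hσ (e l).2 (e m).2 (e.strictMono hlm)
    convert (hb _ _ _ (hi hσ) (hi hτ)).comp (Sum.map id e.symm) using 1 <;>
      exact funext fun x => by rcases x with x | x <;> simp
  let S : Set (Σ k, L.Formula (Fin k) × (Fin k → A ⊕ J)) :=
    {e | ∃ (F : Finset J) (σ : J → ℕ), StrictMonoOn σ F ∧
      (∀ l j, e.2.2 l = Sum.inr j → j ∈ F) ∧ e.2.1.Realize (Sum.elim f (b ∘ σ) ∘ e.2.2)}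
  obtain ⟨N, x, hx⟩ := exists_realize_statements T S fun s hs => by
    choose F σ hσ hF hr using fun e : s => hs e.2
    obtain ⟨τ, hτ⟩ := exists_strictMonoOn (Finset.univ.biUnion F)
    refine ⟨M, Sum.elim f (b ∘ τ), fun e he => ?_⟩
    have hc : ∀ l, ∃ c : A ⊕ F ⟨e, he⟩, Sum.map id Subtype.val c = e.2.2 l := fun l => by
      rcases hl : e.2.2 l with a | j
      · exact ⟨.inl a, rfl⟩
      · exact ⟨.inr ⟨j, hF ⟨e, he⟩ l j hl⟩, rfl⟩
    choose c hc using hc
    have := (hindep (F ⟨e, he⟩) (σ _) τ (hσ _) (hτ.mono fun j hj =>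
      Finset.mem_biUnion.2 ⟨_, Finset.mem_univ _, hj⟩)) _ e.2.1 c
    simp only [Function.comp_assoc, show Sum.map id Subtype.val ∘ c = e.2.2 from funext hc] at this
    exact this.1 (hr ⟨e, he⟩)
  refine ⟨N, x, fun F σ hσ k φ c => ?_⟩
  have hsupp : ∀ l j, Sum.map id (Subtype.val : F → J) (c l) = Sum.inr j → j ∈ F := fun l j h => by
    rcases hl : c l with a | i <;> rw [hl] at h
    · exact (Sum.inl_ne_inr h).elim
    · exact Sum.inr_injective h ▸ i.2
  refine ⟨fun h => hx ⟨k, φ, Sum.map id Subtype.val ∘ c⟩ ⟨F, σ, hσ, hsupp, h⟩, fun h => ?_⟩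
  by_contra hn
  exact hx ⟨k, φ.not, Sum.map id Subtype.val ∘ c⟩ ⟨F, σ, hσ, hsupp, hn⟩ h

/-- **Categoricity in one uncountable size saturates every uncountable model.** -/
theorem isSaturated_of_categorical_of_isComplete [Countable L.Symbols] (hT : T.IsComplete)
    {κ : Cardinal.{max u v}} (hκ : ℵ₀ < κ) (h : κ.Categorical T)
    (M : Theory.ModelType.{u, v, max u v} T) (hM : ℵ₀ < #M) : IsSaturated L #M M := by
  classical
  have : Infinite M := infinite_iff.2 hM.le
  have hst := isOmegaStable_of_categorical_of_isComplete hT M hκ h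
  intro A hA p hp
  by_contra! hno
  obtain ⟨b, hbinj, hb⟩ := exists_indiscernible hst M A hM hA
  have hw : ∀ θ : PFormula L (A ⊕ ℕ), ∃ ψ : PFormula L A,
      (∃ c, Holds (Sum.elim Subtype.val b) θ c) → ∃ c, Holds (Sum.elim Subtype.val b) θ c ∧
        ¬(ψ ∈ p ↔ Holds Subtype.val ψ c) := fun θ => by
    by_cases hθ : ∃ c, Holds (Sum.elim Subtype.val b) θ c
    · obtain ⟨c, hc⟩ := hθ
      obtain ⟨ψ, hψ⟩ := not_forall.1 (hno c)
      exact ⟨ψ, fun _ => ⟨c, hc, hψ⟩⟩
    · exact ⟨⟨0, ⊤, Fin.elim0⟩, fun h => absurd h hθ⟩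
  choose pick hpick using hw
  obtain ⟨A₀, hA₀, hclosed⟩ := exists_countable_closed pick
  let f₀ : A₀ → M := fun a => a.1.1
  let J := κ.ord.ToType
  obtain ⟨N, x, hx⟩ := exists_stretch M f₀ b (fun n i j hi hj => by
    convert (hb n i j hi hj).comp (Sum.map Subtype.val id) using 1 <;>
      exact funext fun x => by rcases x with x | x <;> rfl) J
  have hxinj : Function.Injective fun j : J => x (Sum.inr j) := fun k l hkl => by
    by_contra hne
    obtain ⟨σ, hσ⟩ := exists_strictMonoOn ({k, l} : Finset J)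
    have := ((hx {k, l} σ hσ).apply_eq_iff (.inr ⟨k, by simp⟩) (.inr ⟨l, by simp⟩)).2 hkl
    exact hne (hσ.injOn (by simp) (by simp) (hbinj this))
  have : Countable A₀ := hA₀.to_subtype
  have hΩ : #(A₀ ⊕ J) ≤ κ := by
    rw [mk_sum, lift_id, lift_id, mk_ord_toType]
    exact (add_le_add (mk_le_aleph0.trans hκ.le) le_rfl).trans (add_eq_self hκ.le).le
  obtain ⟨E, y, hE, hyx⟩ := exists_model_around N x hκ.le hΩ
    ((mk_ord_toType κ).symm.le.trans (mk_le_of_injective hxinj))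
  obtain ⟨S, hyS, hS⟩ := exists_atomic hst E y
  let g : A₀ ⊕ J → S := fun ω => ⟨y ω, hyS ⟨ω, rfl⟩⟩
  have : Nonempty J := mk_ne_zero_iff.1 (by
    rw [mk_ord_toType]; exact (aleph0_pos.trans hκ).ne')
  have : Nonempty S := ⟨g (Sum.inr (Classical.arbitrary J))⟩
  have hScard : #S = κ := by
    refine le_antisymm ((mk_le_of_injective Subtype.val_injective).trans hE.le) ?_
    rw [← mk_ord_toType κ]
    exact mk_le_of_injective (f := fun j => g (Sum.inr j)) fun k l hkl =>
      hxinj ((hyx.apply_eq_iff _ _).1 (congrArg Subtype.val hkl))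
  let S' : Theory.ModelType.{u, v, max u v} T := Theory.ModelType.of T S
  obtain ⟨E₁, hE₁, hsat⟩ := exists_countablySaturated hst M hκ
  obtain ⟨e⟩ := h E₁ S' hE₁ hScard
  have hS' : IsSaturated L (ℵ_ 1) S' := hsat.of_equiv e
  -- the type on the countable set, realised in the atomic model
  let p₀ : Set (PFormula L A₀) := {ψ | mapParams Subtype.val ψ ∈ p}
  have hp₀ : IsType f₀ p₀ := hp.mapParams (Subtype.val : A₀ → A) fun _ => rfl
  have hM0 : ElemEquiv L f₀ (y ∘ Sum.inl) :=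
    ((hx ∅ (fun _ => 0) (by simp [StrictMonoOn])).comp Sum.inl).trans (hyx.symm.comp Sum.inl)
  have hS0 : ElemEquiv L f₀ (g ∘ Sum.inl) :=
    hM0.trans (elemEquiv_map S.subtype (g ∘ Sum.inl)).symm
  obtain ⟨a', ha⟩ := hS'.exists_realizes
    (hA₀.le_aleph0.trans_lt (aleph_one_le_iff.1 le_rfl)) (hS0.isType_iff.1 hp₀)
  let a : S := a'
  have haE : ∀ ψ : PFormula L A₀, ψ ∈ p₀ ↔ Holds (y ∘ Sum.inl) ψ a.1 := fun ψ =>
    (ha ψ).trans ((elemEquiv_map S.subtype id).holds_iff ψ (g ∘ Sum.inl) a)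
  obtain ⟨χ, hχa, hχ⟩ := hS 1 (fun _ => a.1) fun _ => a.2
  let θ := toPFormula χ
  have hiso : ∀ z, Holds y θ z → ∀ ψ : PFormula L A₀, ψ ∈ p₀ ↔ Holds (y ∘ Sum.inl) ψ z :=
    fun z hz ψ => (haE ψ).trans ((hχ _ ((holds_toPFormula χ y z).1 hz)).holds_iff ψ
      (Sum.inl ∘ Sum.inl) (Sum.inr 0))
  -- back to the model
  let F : Finset J := (Finset.univ.image θ.2.2).toRight
  obtain ⟨σ, hσ⟩ := exists_strictMonoOn F
  let inc : A₀ ⊕ F → A₀ ⊕ J := Sum.map id Subtype.val
  have hc : ∀ l, ∃ c, inc c = θ.2.2 l := fun l => by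
    rcases hl : θ.2.2 l with a | j
    · exact ⟨.inl a, rfl⟩
    · exact ⟨.inr ⟨j, Finset.mem_toRight.2 (Finset.mem_image.2 ⟨l, Finset.mem_univ l, hl⟩)⟩, rfl⟩
  choose c hc using hc
  let θF : PFormula L (A₀ ⊕ F) := ⟨θ.1, θ.2.1, c⟩
  have hθF : ∀ z, Holds (y ∘ inc) θF z ↔ Holds y θ z := fun z => by
    simp only [θF, Holds, Function.comp_assoc, show inc ∘ c = θ.2.2 from funext hc]
  have hME : ElemEquiv L (Sum.elim f₀ (b ∘ σ) ∘ inc) (y ∘ inc) :=
    (hx F σ hσ).trans (hyx.symm.comp inc)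
  let θM : PFormula L (A ⊕ ℕ) := mapParams (Sum.map Subtype.val (σ ∘ Subtype.val)) θF
  have e0 : Sum.elim (Subtype.val : A → M) b ∘ Sum.map Subtype.val (σ ∘ Subtype.val) =
      Sum.elim f₀ (b ∘ σ) ∘ inc := funext fun x => by rcases x with x | x <;> rfl
  have hθM : ∀ z, Holds (Sum.elim Subtype.val b) θM z ↔
      Holds (Sum.elim f₀ (b ∘ σ) ∘ inc) θF z := fun z => by
    rw [holds_mapParams, e0]
  obtain ⟨c₀, hc₀θ, hc₀⟩ := hpick θM (by
    obtain ⟨z, hz⟩ := (hME.exists_holds θF).2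
      ⟨a.1, (hθF _).2 ((holds_toPFormula χ y _).2 hχa)⟩
    exact ⟨z, (hθM z).2 hz⟩)
  have hmem : ∀ l, (pick θM).2.2 l ∈ A₀ := hclosed θM fun l a' hl => by
    simp only [θM, mapParams, θF, Function.comp_apply] at hl
    rcases hcl : c l with a₁ | j <;> rw [hcl] at hl
    · exact Sum.inl_injective hl ▸ a₁.2
    · exact (Sum.inr_ne_inl hl).elim
  let ψ₀ : PFormula L A₀ :=
    ⟨(pick θM).1, (pick θM).2.1, fun l => ⟨(pick θM).2.2 l, hmem l⟩⟩
  let bad : PFormula L (A₀ ⊕ F) :=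
    negation (conj fun t : Bool => cond t θF (negation (mapParams Sum.inl (signed p₀ ψ₀))))
  have hall : ∀ z, Holds (y ∘ inc) bad z := fun z => by
    rw [holds_negation, holds_conj]
    exact fun hz => (holds_negation _ _ z).1 (hz false)
      ((holds_signed p₀ ψ₀ (y ∘ Sum.inl) z).2 (hiso z ((hθF z).1 (hz true)) ψ₀))
  have := (hME.forall_holds bad).2 hall c₀
  rw [holds_negation, holds_conj] at this
  refine this (Bool.forall_bool.2 ⟨(holds_negation _ _ c₀).2 fun hs => hc₀ ?_, (hθM c₀).1 hc₀θ⟩)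
  exact (holds_signed p₀ ψ₀ f₀ c₀).1 hs

end FA.Morley
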