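import Fermat.Agent.Morley.Formulas

/-!
# Trees of formulas and stability

In a theory with countably many types over countable sets there is no binary tree of formulas;
hence there are at most as many types as parameters over every infinite set.
-/

set_option autoImplicit false

universe u v w

namespace FA.Morley

open FirstOrder Language Cardinal

variable {L : Language.{u, v}} {T : L.Theory}

/-- Countably many types over every countable set. -/
def IsOmegaStable (T : L.Theory) : Prop :=
  ∀ (M : Theory.ModelType.{u, v, max u v} T) (B : Set M), B.Countable →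
    (typesOver L (Subtype.val : B → M)).Countable

theorem IsType.mapParams {P Q M : Type w} [L.Structure M] {f : P → M} {g : Q → M} (r : Q → P)
    (hr : ∀ q, f (r q) = g q) {p : Set (PFormula L P)} (hp : IsType f p) :
    IsType g {ψ | FA.Morley.mapParams r ψ ∈ p} := by
  classical
  intro s
  obtain ⟨a, ha⟩ := hp (s.image (FA.Morley.mapParams r))
  exact ⟨a, fun φ hφ => (ha _ (Finset.mem_image_of_mem _ hφ)).trans
    ((holds_mapParams r f φ a).trans (holds_congr φ (fun j => hr _) a))⟩

/-- Countably many types over every countable family. -/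
theorem IsOmegaStable.countable_typesOver (h : IsOmegaStable T)
    (M : Theory.ModelType.{u, v, max u v} T) {P : Type (max u v)} [Countable P] (f : P → M) :
    (typesOver L f).Countable := by
  let s : Set.range f → P := fun b => b.2.choose
  have hs : ∀ b, f (s b) = b.1 := fun b => b.2.choose_spec
  have hc := h M (Set.range f) (Set.countable_range f)
  refine Set.countable_coe_iff.1 ?_
  have := hc.to_subtype
  refine Function.Injective.countable (f := fun p : typesOver L f =>
    (⟨_, p.2.mapParams s hs⟩ : typesOver L (Subtype.val : Set.range f → M))) fun p q hpq => ?_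
  have hpq := congrArg Subtype.val hpq
  refine Subtype.ext (Set.ext fun φ => ?_)
  have key : ∀ r : typesOver L f, φ ∈ r.1 ↔
      mapParams (s ∘ Set.rangeFactorization f) φ ∈ r.1 := fun r =>
    r.2.mem_iff_mem fun a =>
      (holds_congr φ (fun j => (hs (Set.rangeFactorization f _)).symm) a).trans
      (holds_mapParams _ f φ a).symm
  rw [key, key]
  exact Set.ext_iff.1 hpq (mapParams (Set.rangeFactorization f) φ)

/-- **No binary tree.** -/
theorem not_isOmegaStable_of_tree (M : Theory.ModelType.{u, v, max u v} T) {P : Type (max u v)}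
    (f : P → M) (node : List Bool → PFormula L P) (hne : ∀ s, ∃ a, Holds f (node s) a)
    (hsub : ∀ b s a, Holds f (node (b :: s)) a → Holds f (node s) a)
    (hdis : ∀ s a, Holds f (node (true :: s)) a → ¬Holds f (node (false :: s)) a) :
    ¬IsOmegaStable T := by
  classical
  intro hT
  let B : Set P := ⋃ s, Set.range (node s).2.2
  have : Countable B := (Set.countable_iUnion fun s => Set.countable_range _).to_subtype
  let node' : List Bool → PFormula L B := fun s =>
    ⟨(node s).1, (node s).2.1, fun j => ⟨(node s).2.2 j, Set.mem_iUnion.2 ⟨s, j, rfl⟩⟩⟩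
  let g : B → M := fun b => f b
  have hnode : ∀ s a, Holds g (node' s) a ↔ Holds f (node s) a := fun s a => Iff.rfl
  let pre : (ℕ → Bool) → ℕ → List Bool := fun σ n =>
    Nat.rec [] (fun k s => σ k :: s) n
  have hmono : ∀ σ, ∀ {i j}, i ≤ j → ∀ a, Holds f (node (pre σ j)) a →
      Holds f (node (pre σ i)) a := by
    intro σ i j hij
    induction hij with
    | refl => exact fun _ => id
    | @step j _ ih => exact fun a ha => ih a (hsub (σ j) (pre σ j) a ha)
  have hex : ∀ σ, ∃ p, IsType g p ∧ Set.range (fun n => node' (pre σ n)) ⊆ p := by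
    intro σ
    refine exists_type_superset g _ fun t ht => ?_
    choose n hn using fun φ : t => ht φ.2
    obtain ⟨a, ha⟩ := hne (pre σ (Finset.univ.sup n))
    refine ⟨a, fun φ hφ => ?_⟩
    have hφ' : node' (pre σ (n ⟨φ, hφ⟩)) = φ := hn ⟨φ, hφ⟩
    rw [← hφ', hnode]
    exact hmono σ (Finset.le_sup (Finset.mem_univ _)) a ha
  choose p hp hpS using hex
  have hinj : Function.Injective fun σ => (⟨p σ, hp σ⟩ : typesOver L g) := by
    intro σ τ h
    have h : p σ = p τ := congrArg Subtype.val h
    by_contra hne'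
    have hd : ∃ n, σ n ≠ τ n := Function.ne_iff.1 hne'
    have hpre : ∀ m ≤ Nat.find hd, pre σ m = pre τ m := by
      intro m hm
      induction m with
      | zero => rfl
      | succ m ih =>
        change σ m :: pre σ m = τ m :: pre τ m
        rw [ih (Nat.le_of_succ_le hm), not_ne_iff.1 (Nat.find_min hd hm)]
    set N := Nat.find hd
    have h1 : node' (σ N :: pre σ N) ∈ p σ := hpS σ ⟨N + 1, rfl⟩
    have h2 : node' (τ N :: pre σ N) ∈ p σ := by
      rw [h, hpre N le_rfl]
      exact hpS τ ⟨N + 1, rfl⟩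
    obtain ⟨a, ha⟩ := hp σ {node' (σ N :: pre σ N), node' (τ N :: pre σ N)}
    have ha1 := (ha _ (by simp)).1 h1
    have ha2 := (ha _ (by simp)).1 h2
    rw [hnode] at ha1 ha2
    have hN : σ N ≠ τ N := Nat.find_spec hd
    revert ha1 ha2 hN
    cases σ N <;> cases τ N <;> intro ha1 ha2 hN
    exacts [hN rfl, hdis _ a ha2 ha1, hdis _ a ha1 ha2, hN rfl]
  have := (hT.countable_typesOver M g).to_subtype
  exact not_le.2 (cantor ℵ₀) (by simpa using mk_le_aleph0_iff.2 hinj.countable)

/-- A split refines a formula into two. -/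
theorem IsType.conj_pair_mem {P M : Type w} [L.Structure M] {f : P → M} {p : Set (PFormula L P)}
    (hp : IsType f p) {φ ψ : PFormula L P} (hφ : φ ∈ p) (hψ : ψ ∈ p) :
    conj (fun b : Bool => cond b φ ψ) ∈ p := by
  classical
  obtain ⟨a, ha⟩ := hp {φ, ψ, conj (fun b : Bool => cond b φ ψ)}
  refine (ha _ (by simp)).2 ((holds_conj _ f a).2 fun b => ?_)
  cases b
  exacts [(ha _ (by simp)).1 hψ, (ha _ (by simp)).1 hφ]

theorem countable_formula [Countable L.Symbols] (k : ℕ) : Countable (L.Formula (Fin k)) :=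
  inferInstance

/-- There are no more parametrised formulas than parameters. -/
theorem mk_pformula_le [Countable L.Symbols] {P : Type (max u v)} {μ : Cardinal.{max u v}}
    (hμ : ℵ₀ ≤ μ) (hP : #P ≤ μ) : #(PFormula L P) ≤ μ := by
  rw [mk_sigma]
  have h : ∀ k : ℕ, #(L.Formula (Fin (k + 1)) × (Fin k → P)) ≤ μ := fun k => by
    rw [mk_prod, lift_id, lift_id]
    refine (mul_le_mul' mk_le_aleph0 ?_).trans (mul_eq_right hμ hμ aleph0_ne_zero).le
    rw [mk_arrow, mk_fin, lift_natCast, lift_uzero]
    exact (power_le_power_right hP).trans (pow_le hμ natCast_lt_aleph0)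
  refine (sum_le_lift_mk_mul_iSup _).trans ?_
  rw [mk_nat, lift_aleph0]
  exact (mul_le_mul' le_rfl (ciSup_le' h)).trans (mul_eq_right hμ hμ aleph0_ne_zero).le

/-- **Stability.** -/
theorem IsOmegaStable.mk_typesOver_le [Countable L.Symbols] (hT : IsOmegaStable T)
    (M : Theory.ModelType.{u, v, max u v} T) {P : Type (max u v)} (f : P → M)
    {μ : Cardinal.{max u v}} (hμ : ℵ₀ ≤ μ) (hP : #P ≤ μ) : #(typesOver L f) ≤ μ := by
  classical
  by_contra hlt
  let Big := {φ : PFormula L P // μ < #{p : typesOver L f | φ ∈ p.1}}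
  let S : Set (typesOver L f) :=
    {p | ∀ φ ∈ p.1, μ < #{q : typesOver L f | φ ∈ q.1}}
  have hsmall : #(Sᶜ : Set (typesOver L f)) ≤ μ := by
    have h : Sᶜ ⊆ ⋃ φ : {φ : PFormula L P // #{q : typesOver L f | φ ∈ q.1} ≤ μ},
        {q : typesOver L f | φ.1 ∈ q.1} := by
      intro p hp
      simp only [S, Set.mem_compl_iff, Set.mem_ofPred_eq, not_forall, not_lt] at hp
      obtain ⟨φ, hφ, hle⟩ := hp
      exact Set.mem_iUnion.2 ⟨⟨φ, hle⟩, hφ⟩
    refine (mk_le_mk_of_subset h).trans ((mk_iUnion_le _).trans ?_)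
    exact (mul_le_mul' ((mk_subtype_le _).trans (mk_pformula_le hμ hP))
      (ciSup_le' fun φ => φ.2)).trans (mul_eq_self hμ).le
  have hsplit : ∀ φ : Big, ∃ ψ₁ ψ₂ : Big, (∀ a, Holds f ψ₁.1 a → Holds f φ.1 a) ∧
      (∀ a, Holds f ψ₂.1 a → Holds f φ.1 a) ∧ ∀ a, Holds f ψ₁.1 a → ¬Holds f ψ₂.1 a := by
    rintro ⟨φ, hφ⟩
    have h2 : μ < #({p : typesOver L f | φ ∈ p.1} ∩ S : Set (typesOver L f)) := by
      by_contra hle
      refine hφ.not_ge ((mk_le_mk_of_subset (t := ({p : typesOver L f | φ ∈ p.1} ∩ S) ∪ Sᶜ)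
        fun p hp => ?_).trans ((mk_union_le _ _).trans
          ((add_le_add (not_lt.1 hle) hsmall).trans (add_eq_self hμ).le)))
      by_cases hpS : p ∈ S
      exacts [.inl ⟨hp, hpS⟩, .inr hpS]
    obtain ⟨p, hp, q, hq, hpq⟩ : ∃ p ∈ {p : typesOver L f | φ ∈ p.1} ∩ S,
        ∃ q ∈ {p : typesOver L f | φ ∈ p.1} ∩ S, p ≠ q := by
      by_contra! h
      refine h2.not_ge (le_trans ?_ (one_le_aleph0.trans hμ))
      exact mk_le_one_iff_set_subsingleton.2 fun p hp q hq => h p hp q hq
    obtain ⟨ψ, hψp, hψq⟩ : ∃ ψ, ψ ∈ p.1 ∧ ψ ∉ q.1 := by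
      by_contra! h
      exact hpq (Subtype.ext (p.2.eq_of_subset q.2 h))
    refine ⟨⟨_, hp.2 _ (p.2.conj_pair_mem hp.1 hψp)⟩,
      ⟨_, hq.2 _ (q.2.conj_pair_mem hq.1 ((q.2.negation_mem_iff ψ).2 hψq))⟩,
      fun a ha => (holds_conj _ f a).1 ha true, fun a ha => (holds_conj _ f a).1 ha true,
      fun a ha hb => ?_⟩
    exact (holds_negation f ψ a).1 ((holds_conj _ f a).1 hb false) ((holds_conj _ f a).1 ha false)
  choose ψ₁ ψ₂ h1 h2 h12 using hsplit
  let root : Big := ⟨conj (fun i : Empty => i.elim), (not_le.1 hlt).trans_le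
    (le_of_eq (by
      rw [← mk_univ]
      congr
      refine (Set.eq_univ_of_forall fun p => ?_).symm
      obtain ⟨a, ha⟩ := p.2 {conj (fun i : Empty => i.elim)}
      exact (ha _ (Finset.mem_singleton_self _)).2 ((holds_conj _ f a).2 fun i => i.elim)))⟩
  let node : List Bool → Big := fun s => List.rec root (fun b _ φ => cond b (ψ₁ φ) (ψ₂ φ)) s
  refine not_isOmegaStable_of_tree M f (fun s => (node s).1) (fun s => ?_) (fun b s a => ?_)
    (fun s a => h12 (node s) a) hT
  · have hpos : #{p : typesOver L f | (node s).1 ∈ p.1} ≠ 0 :=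
      (zero_le.trans_lt (node s).2).ne'
    obtain ⟨p, hp⟩ := mk_ne_zero_iff.1 hpos
    obtain ⟨a, ha⟩ := p.2 {(node s).1}
    exact ⟨a, (ha _ (Finset.mem_singleton_self _)).1 hp⟩
  · cases b
    exacts [h2 (node s) a, h1 (node s) a]

end FA.Morley
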